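import Mathlib.Analysis.Complex.Polynomial.Basic
import Mathlib.RingTheory.AlgebraicIndependent.AlgebraicClosure
import Mathlib.RingTheory.AlgebraicIndependent.TranscendenceBasis
import Mathlib.FieldTheory.IsAlgClosed.Basic
import Mathlib.FieldTheory.Separable
import Mathlib.RingTheory.PowerSeries.Basic

/-!
# Complex numbers fixed by every field endomorphism are rational, and descent to rational vectors
-/

set_option autoImplicit false
set_option linter.style.haveILetI false

noncomputable section

namespace Fermat.Agent.MF.IntStruct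

/-- Extension of ring maps to an algebraically closed field. -/
theorem exists_extend {R L M : Type*} [CommRing R] [IsDomain R] [Field L] [Field M]
    [IsAlgClosed M] (f : R →+* L) (g : R →+* M) (hg : Function.Injective g)
    (hf : Function.Injective f) (halg : ∀ x : L, @IsAlgebraic R L _ _ f.toAlgebra x) :
    ∃ σ : L →+* M, σ.comp f = g := by
  letI := f.toAlgebra
  letI := g.toAlgebra
  haveI : Algebra.IsAlgebraic R L := ⟨halg⟩
  haveI : Module.IsTorsionFree R L := by
    haveI : FaithfulSMul R L := (faithfulSMul_iff_algebraMap_injective R L).mpr hf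
    infer_instance
  haveI : FaithfulSMul R M := (faithfulSMul_iff_algebraMap_injective R M).mpr hg
  haveI : Module.IsTorsionFree R M := inferInstance
  exact ⟨(IsAlgClosed.lift : L →ₐ[R] M).toRingHom, RingHom.ext fun r =>
    (IsAlgClosed.lift : L →ₐ[R] M).commutes r⟩

/-- An algebraically independent family stays independent under any embedding of an
algebraic extension of `ℚ`. -/
theorem evalHom_injective {K L ι : Type*} [Field K] [Field L] [Algebra ℚ K] [Algebra ℚ L]
    [Algebra.IsAlgebraic ℚ K] (φ : K →+* L) {v : ι → L} (hv : AlgebraicIndependent ℚ v) :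
    Function.Injective (MvPolynomial.eval₂Hom φ v) := by
  letI := φ.toAlgebra
  haveI : IsScalarTower ℚ K L := .of_algebraMap_eq' (Subsingleton.elim _ _)
  exact hv.extendScalars K

/-- An element of `ℂ` fixed by all field endomorphisms is rational. -/
theorem exists_rat_eq_of_forall_fixed {x : ℂ} (hx : ∀ σ : ℂ →+* ℂ, σ x = x) :
    ∃ q : ℚ, (q : ℂ) = x := by
  by_cases halgx : IsAlgebraic ℚ x
  · by_contra hrat
    have hint : IsIntegral ℚ x := halgx.isIntegral
    -- a second root of the minimal polynomial
    have hdeg : 1 < (minpoly ℚ x).natDegree := by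
      have h1 := minpoly.natDegree_pos hint
      by_contra h2
      obtain ⟨q, hq⟩ := minpoly.mem_range_of_degree_eq_one ℚ x (by
        rw [Polynomial.degree_eq_natDegree (minpoly.ne_zero hint)]; norm_cast; omega)
      exact hrat ⟨q, hq⟩
    have hcard : 1 < Fintype.card ((minpoly ℚ x).rootSet ℂ) := by
      rw [Polynomial.card_rootSet_eq_natDegree (minpoly.irreducible hint).separable
        (IsAlgClosed.splits _)]
      exact hdeg
    obtain ⟨⟨y, hy⟩, hyx⟩ := Fintype.exists_ne_of_one_lt_card hcard
      ⟨x, Polynomial.mem_rootSet.mpr ⟨minpoly.ne_zero hint, minpoly.aeval ℚ x⟩⟩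
    have hyx' : y ≠ x := fun h => hyx (Subtype.ext h)
    -- an embedding of ℚ(x) sending x to y
    let K := IntermediateField.adjoin ℚ ({x} : Set ℂ)
    let pb := IntermediateField.adjoin.powerBasis hint
    let τ : K →ₐ[ℚ] ℂ := pb.lift y (by
      rw [IntermediateField.adjoin.powerBasis_gen, IntermediateField.minpoly_gen]
      exact (Polynomial.mem_rootSet.mp hy).2)
    obtain ⟨s, hs⟩ := exists_isTranscendenceBasis ℚ ℂ
    haveI : Algebra.IsAlgebraic ℚ K := IntermediateField.isAlgebraic_adjoin_simple hint
    have hinj : ∀ φ : K →+* ℂ,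
        Function.Injective (MvPolynomial.eval₂Hom φ ((↑) : s → ℂ)) :=
      fun φ => evalHom_injective φ hs.1
    let φ₁ : K →+* ℂ := K.val.toRingHom
    have halg : ∀ z : ℂ, @IsAlgebraic (MvPolynomial s K) ℂ _ _
        (MvPolynomial.eval₂Hom φ₁ ((↑) : s → ℂ)).toAlgebra z := by
      intro z
      letI := (MvPolynomial.eval₂Hom φ₁ ((↑) : s → ℂ)).toAlgebra
      letI : Algebra (MvPolynomial s ℚ) (MvPolynomial s K) :=
        (MvPolynomial.map (algebraMap ℚ K)).toAlgebra
      letI : Algebra (MvPolynomial s ℚ) ℂ :=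
        (MvPolynomial.aeval ((↑) : s → ℂ)).toRingHom.toAlgebra
      haveI : IsScalarTower (MvPolynomial s ℚ) (MvPolynomial s K) ℂ := by
        refine .of_algebraMap_eq' (MvPolynomial.ringHom_ext (fun r => ?_) (fun i => ?_))
        · simp [RingHom.algebraMap_toAlgebra, φ₁]
        · simp [RingHom.algebraMap_toAlgebra]
      have hz : IsAlgebraic (MvPolynomial s ℚ) z := by
        haveI := hs.isAlgebraic
        obtain ⟨p, hp0, hp⟩ := (Algebra.IsAlgebraic.isAlgebraic
          (R := Algebra.adjoin ℚ (Set.range ((↑) : s → ℂ))) z)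
        let e := hs.1.aevalEquiv
        refine ⟨p.map (e.symm : _ →+* MvPolynomial s ℚ),
          (Polynomial.map_ne_zero_iff e.symm.injective).mpr hp0, ?_⟩
        rw [← hp, Polynomial.aeval_def, Polynomial.eval₂_map, Polynomial.aeval_def]
        congr 1
        refine RingHom.ext fun a => ?_
        show MvPolynomial.aeval ((↑) : s → ℂ) (e.symm a) = (a : ℂ)
        rw [← hs.1.algebraMap_aevalEquiv, AlgEquiv.apply_symm_apply]
        rfl
      exact hz.extendScalars (MvPolynomial.map_injective _ (algebraMap ℚ K).injective)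
    obtain ⟨σ, hσ⟩ := exists_extend _ (MvPolynomial.eval₂Hom τ.toRingHom ((↑) : s → ℂ))
      (hinj _) (hinj φ₁) halg
    have := RingHom.congr_fun hσ (MvPolynomial.C (IntermediateField.AdjoinSimple.gen ℚ x))
    simp only [RingHom.comp_apply, MvPolynomial.eval₂Hom_C] at this
    apply hyx'
    rw [← hx σ]
    refine Eq.trans ?_ this.symm
    exact (pb.lift_gen y _).symm.trans (by rw [IntermediateField.adjoin.powerBasis_gen]; rfl)
  · -- transcendental: shift a transcendence basis through `x`
    exfalso
    have hind : AlgebraicIndepOn ℚ id ({x} : Set ℂ) := by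
      simpa [AlgebraicIndepOn, Transcendental, algebraicIndependent_singleton_iff] using halgx
    obtain ⟨s, hxs, hs⟩ := exists_isTranscendenceBasis_superset hind
    let f : MvPolynomial s ℚ →+* ℂ := (MvPolynomial.aeval ((↑) : s → ℂ)).toRingHom
    let sh : MvPolynomial s ℚ →ₐ[ℚ] MvPolynomial s ℚ :=
      MvPolynomial.aeval fun i => MvPolynomial.X i + 1
    let sh' : MvPolynomial s ℚ →ₐ[ℚ] MvPolynomial s ℚ :=
      MvPolynomial.aeval fun i => MvPolynomial.X i - 1
    have hsh : Function.LeftInverse sh' sh := by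
      intro p
      have : sh'.comp sh = AlgHom.id ℚ _ := by
        ext i : 1; simp [sh, sh']
      exact DFunLike.congr_fun this p
    have hinj : Function.Injective f := hs.1
    have halg : ∀ z : ℂ, @IsAlgebraic (MvPolynomial s ℚ) ℂ _ _ f.toAlgebra z := by
      intro z
      letI := f.toAlgebra
      haveI := hs.isAlgebraic
      obtain ⟨p, hp0, hp⟩ := (Algebra.IsAlgebraic.isAlgebraic
        (R := Algebra.adjoin ℚ (Set.range ((↑) : s → ℂ))) z)
      let e := hs.1.aevalEquiv
      refine ⟨p.map (e.symm : _ →+* MvPolynomial s ℚ),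
        (Polynomial.map_ne_zero_iff e.symm.injective).mpr hp0, ?_⟩
      rw [← hp, Polynomial.aeval_def, Polynomial.eval₂_map, Polynomial.aeval_def]
      congr 1
      refine RingHom.ext fun a => ?_
      show MvPolynomial.aeval ((↑) : s → ℂ) (e.symm a) = (a : ℂ)
      rw [← hs.1.algebraMap_aevalEquiv, AlgEquiv.apply_symm_apply]
      rfl
    obtain ⟨σ, hσ⟩ := exists_extend f (f.comp sh.toRingHom) (hinj.comp hsh.injective) hinj halg
    have := RingHom.congr_fun hσ (MvPolynomial.X ⟨x, hxs rfl⟩)
    simp [f, sh, hx σ] at this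

/-- A finite-dimensional space of power series stable under all field endomorphisms of `ℂ`
is spanned by its elements with rational coefficients. -/
theorem le_span_rational {W : Submodule ℂ (PowerSeries ℂ)} (B : ℕ)
    (hB : ∀ w ∈ W, (∀ i < B, PowerSeries.coeff i w = 0) → w = 0)
    (hσ : ∀ σ : ℂ →+* ℂ, ∀ w ∈ W, PowerSeries.map σ w ∈ W) :
    W ≤ Submodule.span ℂ
      {w | w ∈ W ∧ ∀ n, ∃ q : ℚ, (q : ℂ) = PowerSeries.coeff n w} := by
  classical
  let supp : PowerSeries ℂ → Finset ℕ := fun w =>
    (Finset.range B).filter fun i => PowerSeries.coeff i w ≠ 0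
  intro u hu
  induction hc : (supp u).card using Nat.strong_induction_on generalizing u with
  | _ c ih =>
    subst hc
    by_cases hu0 : u = 0
    · subst hu0; exact zero_mem _
    have hex : ∃ d, ∃ v ∈ W, v ≠ 0 ∧ supp v ⊆ supp u ∧ (supp v).card = d :=
      ⟨_, u, hu, hu0, subset_rfl, rfl⟩
    obtain ⟨v, hv, hv0, hvu, hvd⟩ := Nat.find_spec hex
    obtain ⟨i, hi⟩ : (supp v).Nonempty := by
      by_contra hne
      refine hv0 (hB v hv fun i hi => ?_)
      by_contra hvi
      exact hne ⟨i, Finset.mem_filter.mpr ⟨Finset.mem_range.mpr hi, hvi⟩⟩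
    obtain ⟨hiB, hvi⟩ := Finset.mem_filter.mp hi
    set v' := (PowerSeries.coeff i v)⁻¹ • v with hv'
    have hv'W : v' ∈ W := W.smul_mem _ hv
    have hv'i : PowerSeries.coeff i v' = 1 := by simp [hv', hvi]
    have hrat : ∀ n, ∃ q : ℚ, (q : ℂ) = PowerSeries.coeff n v' := by
      intro n
      refine exists_rat_eq_of_forall_fixed fun σ => ?_
      set z := PowerSeries.map σ v' - v' with hz
      have hzW : z ∈ W := W.sub_mem (hσ σ _ hv'W) hv'W
      have hzsub : supp z ⊆ (supp v).erase i := by
        intro l hl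
        obtain ⟨hlB, hl⟩ := Finset.mem_filter.mp hl
        rw [Finset.mem_erase]
        refine ⟨fun h => hl ?_, Finset.mem_filter.mpr ⟨hlB, fun h => hl ?_⟩⟩
        · subst h; simp [hz, hv'i]
        · simp [hz, hv', h]
      have hz0 : z = 0 := by
        by_contra hz0
        exact Nat.find_min hex (m := (supp z).card)
          (hvd ▸ (Finset.card_le_card hzsub).trans_lt (Finset.card_erase_lt_of_mem hi))
          ⟨z, hzW, hz0, (hzsub.trans (Finset.erase_subset _ _)).trans hvu, rfl⟩
      have := congrArg (PowerSeries.coeff n) hz0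
      simpa [hz, sub_eq_zero] using this
    have hlt : (supp (u - PowerSeries.coeff i u • v')).card < (supp u).card := by
      refine (Finset.card_le_card ?_).trans_lt (Finset.card_erase_lt_of_mem (hvu hi))
      intro l hl
      obtain ⟨hlB, hl⟩ := Finset.mem_filter.mp hl
      rw [Finset.mem_erase]
      refine ⟨fun h => hl (by subst h; simp [hv'i]), Finset.mem_filter.mpr ⟨hlB, fun h => ?_⟩⟩
      have hlv : l ∉ supp v := fun hlv => (Finset.mem_filter.mp (hvu hlv)).2 h
      have : PowerSeries.coeff l v = 0 := by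
        by_contra hne
        exact hlv (Finset.mem_filter.mpr ⟨hlB, hne⟩)
      exact hl (by simp [h, hv', this])
    have h1 := ih _ hlt (W.sub_mem hu (W.smul_mem _ hv'W)) rfl
    have h2 : v' ∈ Submodule.span ℂ
        {w | w ∈ W ∧ ∀ n, ∃ q : ℚ, (q : ℂ) = PowerSeries.coeff n w} :=
      Submodule.subset_span ⟨hv'W, hrat⟩
    simpa using add_mem h1 (Submodule.smul_mem _ (PowerSeries.coeff i u) h2)

end Fermat.Agent.MF.IntStruct
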