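import Fermat.Agent.MF.IntStruct.Forms
import Mathlib.Analysis.Analytic.Order

/-!
# Holomorphic quotients satisfying monic equations
-/

set_option autoImplicit false

noncomputable section

open UpperHalfPlane Filter Topology
open scoped MatrixGroups Manifold

namespace Fermat.Agent.MF.IntStruct

/-- Local version: a quotient integral over analytic functions is analytic. -/
theorem exists_local_quotient {A B : ℂ → ℂ} {a : ℕ → ℂ → ℂ} {n : ℕ} {z₀ : ℂ}
    (hA : AnalyticAt ℂ A z₀) (hB : AnalyticAt ℂ B z₀) (ha : ∀ i < n, AnalyticAt ℂ (a i) z₀)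
    (hB0 : analyticOrderAt B z₀ ≠ ⊤)
    (hrel : ∀ᶠ z in 𝓝 z₀, A z ^ n = ∑ i ∈ Finset.range n, a i z * A z ^ i * B z ^ (n - i)) :
    ∃ G : ℂ → ℂ, AnalyticAt ℂ G z₀ ∧ (∀ᶠ z in 𝓝 z₀, G z * B z = A z) ∧
      ∀ᶠ z in 𝓝[≠] z₀, B z ≠ 0 := by
  obtain ⟨b, hb, hb0, hBeq⟩ := hB.analyticOrderAt_ne_top.mp hB0
  set r := analyticOrderNatAt B z₀ with hr
  have hbne : ∀ᶠ z in 𝓝 z₀, b z ≠ 0 := hb.continuousAt.eventually_ne hb0
  have hBne : ∀ᶠ z in 𝓝[≠] z₀, B z ≠ 0 := by
    filter_upwards [hBeq.filter_mono nhdsWithin_le_nhds, hbne.filter_mono nhdsWithin_le_nhds,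
      self_mem_nhdsWithin] with z h1 h2 h3
    rw [h1, smul_eq_mul]
    exact mul_ne_zero (pow_ne_zero _ (sub_ne_zero.mpr h3)) h2
  rcases eq_or_ne (analyticOrderAt A z₀) ⊤ with hA0 | hA0
  · refine ⟨0, analyticAt_const, ?_, hBne⟩
    filter_upwards [analyticOrderAt_eq_top.mp hA0] with z hz
    simp [hz]
  obtain ⟨c, hc, hc0, hAeq⟩ := hA.analyticOrderAt_ne_top.mp hA0
  set s := analyticOrderNatAt A z₀ with hs
  have hrs : r ≤ s := by
    by_contra hlt
    rw [not_le] at hlt
    set R : ℂ → ℂ := fun z =>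
      ∑ i ∈ Finset.range n, a i z * c z ^ i * (z - z₀) ^ ((r - s) * (n - i)) * b z ^ (n - i)
      with hR
    have hev : (fun z => c z ^ n) =ᶠ[𝓝[≠] z₀] R := by
      filter_upwards [hrel.filter_mono nhdsWithin_le_nhds, hBeq.filter_mono nhdsWithin_le_nhds,
        hAeq.filter_mono nhdsWithin_le_nhds, self_mem_nhdsWithin] with z h h1 h2 h3
      rw [h1, h2] at h
      simp only [smul_eq_mul, mul_pow] at h
      have hne : ((z - z₀) ^ s) ^ n ≠ 0 := pow_ne_zero _ (pow_ne_zero _ (sub_ne_zero.mpr h3))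
      apply mul_left_cancel₀ hne
      rw [h, hR, Finset.mul_sum]
      refine Finset.sum_congr rfl fun i hi => ?_
      have hi' := (Finset.mem_range.mp hi).le
      have e : ((z - z₀) ^ s) ^ i * ((z - z₀) ^ r) ^ (n - i) =
          ((z - z₀) ^ s) ^ n * (z - z₀) ^ ((r - s) * (n - i)) := by
        rw [← pow_mul, ← pow_mul, ← pow_mul, ← pow_add, ← pow_add]
        congr 1
        obtain ⟨d, hd⟩ := Nat.exists_eq_add_of_le hi'
        obtain ⟨e', he'⟩ := Nat.exists_eq_add_of_le hlt.le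
        rw [hd, he']
        simp only [Nat.add_sub_cancel_left]
        ring
      linear_combination (a i z * c z ^ i * b z ^ (n - i)) * e
    have hcts : ContinuousAt R z₀ := by
      rw [hR]
      refine tendsto_finsetSum _ fun i hi => ?_
      exact ((((ha i (Finset.mem_range.mp hi)).continuousAt.mul (hc.continuousAt.pow _)).mul
        (((continuous_id.sub continuous_const).pow _).continuousAt)).mul (hb.continuousAt.pow _))
    have hval := tendsto_nhds_unique (((hc.continuousAt.pow n).tendsto.mono_left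
      nhdsWithin_le_nhds).congr' hev) (hcts.tendsto.mono_left nhdsWithin_le_nhds)
    have hzero : R z₀ = 0 := by
      rw [hR]
      refine Finset.sum_eq_zero fun i hi => ?_
      have := Finset.mem_range.mp hi
      have hpos : (r - s) * (n - i) ≠ 0 := Nat.mul_ne_zero (by omega) (by omega)
      simp [zero_pow hpos]
    exact pow_ne_zero n hc0 (hval.trans hzero)
  refine ⟨fun z => (z - z₀) ^ (s - r) * c z / b z,
    ((by fun_prop : AnalyticAt ℂ (fun z : ℂ => (z - z₀) ^ (s - r)) z₀).mul hc).div hb hb0,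
    ?_, hBne⟩
  filter_upwards [hBeq, hAeq, hbne] with z h1 h2 h3
  rw [h1, h2, smul_eq_mul, smul_eq_mul]
  conv_rhs => rw [← Nat.sub_add_cancel hrs, pow_add]
  field_simp

/-- A quotient `A / B` of holomorphic functions on `ℍ` which is integral over holomorphic
functions is holomorphic. -/
theorem exists_quotient {A B : ℍ → ℂ} {a : ℕ → ℍ → ℂ} {n : ℕ} (hn : 0 < n)
    (hA : MDiff A) (hB : MDiff B) (ha : ∀ i < n, MDiff (a i)) (hB0 : B ≠ 0)
    (hrel : A ^ n = ∑ i ∈ Finset.range n, a i * A ^ i * B ^ (n - i)) :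
    ∃ g : ℍ → ℂ, MDiff g ∧ g * B = A ∧ g ^ n = ∑ i ∈ Finset.range n, a i * g ^ i := by
  have han : ∀ {F : ℍ → ℂ}, MDiff F → AnalyticOnNhd ℂ (F ∘ ofComplex) {z | 0 < z.im} :=
    fun hF => (UpperHalfPlane.mdifferentiable_iff.mp hF).analyticOnNhd isOpen_upperHalfPlaneSet
  set A' := A ∘ ofComplex with hA'
  set B' := B ∘ ofComplex with hB'
  have hBtop : ∀ z : ℂ, 0 < z.im → analyticOrderAt B' z ≠ ⊤ := by
    intro z hz htop
    apply hB0
    refine eq_zero_of_frequently hB (τ := ⟨z, hz⟩) (Eventually.frequently ?_)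
    have h := analyticOrderAt_eq_top.mp htop
    have h2 : ∀ᶠ w : ℍ in 𝓝 (⟨z, hz⟩ : ℍ), B' ↑w = 0 :=
      (continuous_coe.continuousAt (x := (⟨z, hz⟩ : ℍ))).eventually h
    filter_upwards [h2.filter_mono nhdsWithin_le_nhds] with w hw
    simpa [hB', ofComplex_apply] using hw
  have hloc : ∀ z : ℂ, 0 < z.im → ∃ G : ℂ → ℂ, AnalyticAt ℂ G z ∧
      (∀ᶠ w in 𝓝 z, G w * B' w = A' w) ∧ ∀ᶠ w in 𝓝[≠] z, B' w ≠ 0 := by
    intro z hz
    refine exists_local_quotient (a := fun i => a i ∘ ofComplex) (han hA z hz) (han hB z hz)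
      (fun i hi => han (ha i hi) z hz) (hBtop z hz) (Eventually.of_forall fun w => ?_)
    simpa [hA', hB'] using congrFun hrel (ofComplex w)
  choose! G hG hGeq hBne using hloc
  set g : ℍ → ℂ := fun τ => G τ τ with hg
  have hgloc : ∀ z : ℂ, 0 < z.im → (g ∘ ofComplex) =ᶠ[𝓝 z] G z := by
    intro z hz
    filter_upwards [(hGeq z hz).eventually_nhds, isOpen_upperHalfPlaneSet.mem_nhds hz,
      (hG z hz).eventually_analyticAt] with w hw hwim hwan
    simp only [Function.comp_apply, hg, ofComplex_apply_of_im_pos hwim]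
    refine tendsto_nhds_unique (l := 𝓝[≠] w) ((((hG w hwim).continuousAt).tendsto.mono_left
      nhdsWithin_le_nhds).congr' ?_) (hwan.continuousAt.tendsto.mono_left nhdsWithin_le_nhds)
    filter_upwards [(hGeq w hwim).filter_mono nhdsWithin_le_nhds,
      hw.filter_mono nhdsWithin_le_nhds, hBne w hwim] with x h1 h2 h3
    exact mul_right_cancel₀ h3 (h1.trans h2.symm)
  have hgd : MDiff g := fun τ => UpperHalfPlane.mdifferentiableAt_iff.mpr
    ((hG _ τ.im_pos).differentiableAt.congr_of_eventuallyEq (hgloc _ τ.im_pos))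
  have hgB : g * B = A := by
    funext τ
    have := (hGeq _ τ.im_pos).self_of_nhds
    simpa [hg, hA', hB', ofComplex_apply] using this
  refine ⟨g, hgd, hgB, ?_⟩
  have hP : (g ^ n - ∑ i ∈ Finset.range n, a i * g ^ i) * B ^ n = 0 := by
    rw [sub_mul, ← mul_pow, hgB, hrel, Finset.sum_mul, sub_eq_zero]
    refine Finset.sum_congr rfl fun i hi => ?_
    rw [← hgB, mul_pow]
    conv_rhs => rw [← Nat.sub_add_cancel (Finset.mem_range.mp hi).le, pow_add]
    ring
  have hgP : MDiff (g ^ n - ∑ i ∈ Finset.range n, a i * g ^ i) :=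
    (hgd.pow n).sub (Finset.sum_induction _ (fun g : ℍ → ℂ => MDiff g)
      (fun _ _ ha hb => ha.add hb) mdifferentiable_const
      (fun i hi => (ha i (Finset.mem_range.mp hi)).mul (hgd.pow i)))
  rcases (UpperHalfPlane.mul_eq_zero_iff hgP (hB.pow n)).mp hP with h | h
  · exact sub_eq_zero.mp h
  · exfalso
    apply hB0
    funext τ
    exact pow_eq_zero_iff hn.ne' |>.mp (congrFun h τ)

/-- Roots of a monic equation tend to zero if the coefficients do. -/
theorem tendsto_zero_of_monic {α : Type*} {l : Filter α} {y : α → ℂ} {a : ℕ → α → ℂ} {n : ℕ}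
    (ha : ∀ i < n, Tendsto (a i) l (𝓝 0))
    (hrel : ∀ x, y x ^ n = ∑ i ∈ Finset.range n, a i x * y x ^ i) :
    Tendsto y l (𝓝 0) := by
  rw [NormedAddGroup.tendsto_nhds_zero]
  intro ε hε
  have h0 : Tendsto (fun x => ∑ i ∈ Finset.range n, ‖a i x‖ / ε ^ (n - i)) l (𝓝 0) := by
    simpa using tendsto_finsetSum (Finset.range n) fun i hi =>
      ((ha i (Finset.mem_range.mp hi)).norm.div_const (ε ^ (n - i)))
  filter_upwards [h0.eventually (eventually_lt_nhds one_pos)] with x hx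
  by_contra hge
  rw [not_lt] at hge
  have hpos : 0 < ‖y x‖ := hε.trans_le hge
  refine absurd hx (not_lt.mpr ?_)
  have h1 : ‖y x‖ ^ n ≤ ∑ i ∈ Finset.range n, ‖a i x‖ * ‖y x‖ ^ i := by
    rw [← norm_pow, hrel x]
    exact (norm_sum_le _ _).trans_eq (by simp [norm_pow])
  calc (1 : ℝ) ≤ (∑ i ∈ Finset.range n, ‖a i x‖ * ‖y x‖ ^ i) / ‖y x‖ ^ n :=
        (one_le_div (pow_pos hpos n)).mpr h1
    _ ≤ ∑ i ∈ Finset.range n, ‖a i x‖ / ε ^ (n - i) := by
        rw [Finset.sum_div]
        refine Finset.sum_le_sum fun i hi => ?_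
        have hi' := (Finset.mem_range.mp hi).le
        conv_lhs => rw [← Nat.sub_add_cancel hi', pow_add]
        rw [mul_div_mul_right _ _ (pow_ne_zero i hpos.ne')]
        exact div_le_div_of_nonneg_left (norm_nonneg _) (pow_pos hε _)
          (pow_le_pow_left₀ hε.le hge _)

end Fermat.Agent.MF.IntStruct
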