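import Fermat.Agent.MF.IntStruct.Separating

/-!
# Algebraic relations of a form on `Γ₀(N)` over forms of level one
-/

set_option autoImplicit false

noncomputable section

open UpperHalfPlane ModularForm CongruenceSubgroup
open scoped MatrixGroups Manifold

namespace Fermat.Agent.MF.IntStruct

/-- Cosets of `Γ₀(N)` in `SL₂(ℤ)`. -/
abbrev Coset (N : ℕ) : Type := SL(2, ℤ) ⧸ Gamma0 N

/-- Translate of a function to a coset. -/
def translateFn (N : ℕ) (k : ℤ) (f : ℍ → ℂ) (q : Coset N) : ℍ → ℂ := f ∣[k] q.out⁻¹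

/-- Elementary symmetric function of a family on a finite set. -/
def esymmFn {ι : Type*} (G : ι → ℍ → ℂ) (S : Finset ι) (j : ℕ) : ℍ → ℂ :=
  ∑ t ∈ S.powersetCard j, ∏ i ∈ t, G i

theorem prod_slash_SL {ι : Type*} (s : Finset ι) (F : ι → ℍ → ℂ) (k : ℤ) (γ : SL(2, ℤ)) :
    (∏ i ∈ s, F i) ∣[k * s.card] γ = ∏ i ∈ s, (F i ∣[k] γ) := by
  induction s using Finset.cons_induction with
  | empty => simpa using ModularForm.is_invariant_one γ
  | cons i s hi ih =>
    rw [Finset.prod_cons, Finset.prod_cons, Finset.card_cons,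
      show k * ((s.card + 1 : ℕ) : ℤ) = k + k * s.card by push_cast; ring, mul_slash_SL2, ih]

theorem prod_sub_expand {ι : Type*} (G : ι → ℍ → ℂ) (S : Finset ι) (x : ℍ → ℂ) :
    ∏ i ∈ S, (x - G i) =
      ∑ j ∈ Finset.range (S.card + 1), (-1 : ℍ → ℂ) ^ j * x ^ (S.card - j) * esymmFn G S j := by
  classical
  rw [show ∏ i ∈ S, (x - G i) = ∏ i ∈ S, (-G i + x) from
    Finset.prod_congr rfl fun i _ => by ring, Finset.prod_add, Finset.sum_powerset]
  refine Finset.sum_congr rfl fun j _ => ?_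
  rw [esymmFn, Finset.mul_sum]
  refine Finset.sum_congr rfl fun t ht => ?_
  obtain ⟨hts, htc⟩ := Finset.mem_powersetCard.mp ht
  rw [Finset.prod_neg, Finset.prod_const, Finset.card_sdiff_of_subset hts, htc]
  ring

variable {N : ℕ} {k : ℤ} {f : ℍ → ℂ}

theorem translateFn_mk (hf : IsForm (Gamma0 N) k f) (g : SL(2, ℤ)) :
    translateFn N k f (g : Coset N) = f ∣[k] g⁻¹ := by
  obtain ⟨j, hj⟩ := QuotientGroup.mk_out_eq_mul (Gamma0 N) g
  rw [translateFn, hj, mul_inv_rev, SlashAction.slash_mul, hf.slash_eq _ (inv_mem j.2)]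

theorem translateFn_slash (hf : IsForm (Gamma0 N) k f) (γ : SL(2, ℤ)) (q : Coset N) :
    translateFn N k f q ∣[k] γ = translateFn N k f (γ⁻¹ • q) := by
  induction q using QuotientGroup.induction_on with
  | _ g =>
    rw [translateFn_mk hf, MulAction.Quotient.smul_coe, smul_eq_mul, translateFn_mk hf,
      mul_inv_rev, inv_inv, SlashAction.slash_mul]

theorem translateFn_one (hf : IsForm (Gamma0 N) k f) :
    translateFn N k f ((1 : SL(2, ℤ)) : Coset N) = f := by
  simp [translateFn_mk hf]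

theorem translateFn_holo (hf : IsForm (Gamma0 N) k f) (q : Coset N) :
    MDiff (translateFn N k f q) :=
  mdiff_slash_SL hf.holo k _

theorem translateFn_bdd (hf : IsForm (Gamma0 N) k f) (q : Coset N) :
    IsBoundedAtImInfty (translateFn N k f q) :=
  hf.bdd _

theorem isBounded_prod {ι : Type*} (s : Finset ι) {F : ι → ℍ → ℂ}
    (h : ∀ i ∈ s, IsBoundedAtImInfty (F i)) : IsBoundedAtImInfty (∏ i ∈ s, F i) :=
  Finset.prod_induction _ IsBoundedAtImInfty (fun _ _ ha hb => ha.mul hb)
    (by simpa [IsBoundedAtImInfty] using! Filter.const_boundedAtFilter atImInfty (1 : ℂ)) h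

theorem isBounded_sum {ι : Type*} (s : Finset ι) {F : ι → ℍ → ℂ}
    (h : ∀ i ∈ s, IsBoundedAtImInfty (F i)) : IsBoundedAtImInfty (∑ i ∈ s, F i) :=
  Finset.sum_induction _ IsBoundedAtImInfty (fun _ _ ha hb => ha.add hb)
    (zero_form_isBoundedAtImInfty) h

theorem mdiff_prod {ι : Type*} (s : Finset ι) {F : ι → ℍ → ℂ}
    (h : ∀ i ∈ s, MDiff (F i)) : MDiff (∏ i ∈ s, F i) :=
  Finset.prod_induction _ (fun g : ℍ → ℂ => MDiff g) (fun _ _ ha hb => ha.mul hb)
    mdifferentiable_const h

theorem mdiff_sum {ι : Type*} (s : Finset ι) {F : ι → ℍ → ℂ}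
    (h : ∀ i ∈ s, MDiff (F i)) : MDiff (∑ i ∈ s, F i) :=
  Finset.sum_induction _ (fun g : ℍ → ℂ => MDiff g) (fun _ _ ha hb => ha.add hb)
    mdifferentiable_const h

variable [NeZero N]

instance : Fintype (Coset N) := Fintype.ofFinite _

theorem isForm_esymmFn (hf : IsForm (Gamma0 N) k f) (j : ℕ) :
    IsForm ⊤ (k * j) (esymmFn (translateFn N k f) Finset.univ j) := by
  have hinv : ∀ γ : SL(2, ℤ), esymmFn (translateFn N k f) Finset.univ j ∣[k * j] γ =
      esymmFn (translateFn N k f) Finset.univ j := by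
    intro γ
    rw [esymmFn, SlashAction.sum_slash]
    set π : Coset N ≃ Coset N := MulAction.toPerm γ⁻¹ with hπ
    conv_rhs => rw [← Finset.map_univ_equiv π, Finset.powersetCard_map, Finset.sum_map]
    refine Finset.sum_congr rfl fun t ht => ?_
    rw [← (Finset.mem_powersetCard.mp ht).2, prod_slash_SL]
    simp only [Finset.mapEmbedding_apply, RelEmbedding.coe_toEmbedding, Finset.prod_map]
    exact Finset.prod_congr rfl fun q _ => translateFn_slash hf γ q
  refine ⟨fun γ _ => hinv γ, mdiff_sum _ fun t _ => mdiff_prod _ fun q _ => translateFn_holo hf q,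
    fun γ => ?_⟩
  rw [hinv γ]
  exact isBounded_sum _ fun t _ => isBounded_prod _ fun q _ => translateFn_bdd hf q

theorem zeroAtImInfty_esymmFn (hf : IsForm (Gamma0 N) k f)
    (hz : ∀ γ : SL(2, ℤ), IsZeroAtImInfty (f ∣[k] γ)) {j : ℕ} (hj : 0 < j) :
    IsZeroAtImInfty (esymmFn (translateFn N k f) Finset.univ j) := by
  refine Finset.sum_induction _ IsZeroAtImInfty (fun _ _ ha hb => ha.add hb)
    (Filter.zero_zeroAtFilter _) fun t ht => ?_
  have htc := (Finset.mem_powersetCard.mp ht).2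
  obtain ⟨q, hq⟩ := Finset.card_pos.mp (htc ▸ hj)
  classical
  rw [← Finset.mul_prod_erase t _ hq]
  have h2 : IsBoundedAtImInfty (∏ p ∈ t.erase q, translateFn N k f p) :=
    isBounded_prod _ fun p _ => translateFn_bdd hf p
  have h1 : IsZeroAtImInfty (translateFn N k f q) := hz _
  rw [IsBoundedAtImInfty, Filter.BoundedAtFilter] at h2
  rw [IsZeroAtImInfty, Filter.ZeroAtFilter] at h1 ⊢
  exact h1.zero_mul_isBoundedUnder_le ((Asymptotics.isBigO_one_iff ℝ).mp h2)

/-- The monic equation of a form over forms of level one. -/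
theorem exists_monic_relation (hf : IsForm (Gamma0 N) k f)
    (hz : ∀ γ : SL(2, ℤ), IsZeroAtImInfty (f ∣[k] γ)) :
    ∃ (n : ℕ) (a : ℕ → ℍ → ℂ), 0 < n ∧
      (∀ i < n, IsForm ⊤ (k * ((n : ℤ) - i)) (a i) ∧ IsZeroAtImInfty (a i)) ∧
      f ^ n = ∑ i ∈ Finset.range n, a i * f ^ i := by
  classical
  set n := (Finset.univ : Finset (Coset N)).card with hn
  set e := esymmFn (translateFn N k f) Finset.univ with he
  refine ⟨n, fun i => ((-1 : ℂ) ^ (n - i + 1)) • e (n - i), Finset.card_pos.mpr Finset.univ_nonempty,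
    fun i hi => ⟨?_, ?_⟩, ?_⟩
  · have : ((n - i : ℕ) : ℤ) = (n : ℤ) - i := by omega
    rw [← this]
    exact (isForm_esymmFn hf _).smul _
  · exact (zeroAtImInfty_esymmFn hf hz (by omega)).smul _
  · have h0 : ∏ q : Coset N, (f - translateFn N k f q) = 0 :=
      Finset.prod_eq_zero (Finset.mem_univ ((1 : SL(2, ℤ)) : Coset N))
        (by rw [translateFn_one hf, sub_self])
    rw [prod_sub_expand, ← hn, Finset.sum_range_succ'] at h0
    simp only [pow_zero, one_mul, Nat.sub_zero, esymmFn, Finset.powersetCard_zero,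
      Finset.sum_singleton, Finset.prod_empty, mul_one] at h0
    rw [eq_neg_of_add_eq_zero_right h0, ← Finset.sum_neg_distrib,
      ← Finset.sum_range_reflect (fun i => ((-1 : ℂ) ^ (n - i + 1)) • e (n - i) * f ^ i)]
    refine Finset.sum_congr rfl fun j hj => ?_
    have hj' := Finset.mem_range.mp hj
    rw [show n - (n - 1 - j) = j + 1 by omega, show n - 1 - j = n - (j + 1) by omega, he]
    funext z
    simp [esymmFn, pow_succ]
    ring

/-- Coefficients of the Lagrange numerator. -/
def lagrangeCoeff (N : ℕ) [NeZero N] (k : ℤ) (f : ℍ → ℂ) (j : ℕ) : ℍ → ℂ :=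
  open Classical in
  ∑ q : Coset N, translateFn N k f q *
    esymmFn (translateFn N 12 (sepForm N)) (Finset.univ.erase q) j

theorem isForm_lagrangeCoeff (hf : IsForm (Gamma0 N) k f) (j : ℕ) :
    IsForm ⊤ (k + 12 * j) (lagrangeCoeff N k f j) := by
  classical
  have hD : IsForm (Gamma0 N) 12 (sepForm N) := isForm_of_mem_intForms (sepForm_mem N)
  have hinv : ∀ γ : SL(2, ℤ), lagrangeCoeff N k f j ∣[k + 12 * j] γ = lagrangeCoeff N k f j := by
    intro γ
    rw [lagrangeCoeff, SlashAction.sum_slash]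
    set π : Coset N ≃ Coset N := MulAction.toPerm γ⁻¹ with hπ
    conv_rhs => rw [← Equiv.sum_comp π]
    refine Finset.sum_congr rfl fun q _ => ?_
    rw [mul_slash_SL2, translateFn_slash hf, esymmFn, SlashAction.sum_slash]
    have hmap : Finset.univ.erase (π q) = (Finset.univ.erase q).map π.toEmbedding := by
      rw [Finset.map_erase, Finset.map_univ_equiv]; rfl
    rw [esymmFn, hmap, Finset.powersetCard_map, Finset.sum_map]
    refine congrArg₂ _ rfl (Finset.sum_congr rfl fun t ht => ?_)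
    rw [← (Finset.mem_powersetCard.mp ht).2, prod_slash_SL]
    simp only [Finset.mapEmbedding_apply, RelEmbedding.coe_toEmbedding, Finset.prod_map]
    exact Finset.prod_congr rfl fun p _ => translateFn_slash hD γ p
  refine ⟨fun γ _ => hinv γ, mdiff_sum _ fun q _ => (translateFn_holo hf q).mul
    (mdiff_sum _ fun t _ => mdiff_prod _ fun p _ => translateFn_holo hD p), fun γ => ?_⟩
  rw [hinv γ]
  exact isBounded_sum _ fun q _ => (translateFn_bdd hf q).mul
    (isBounded_sum _ fun t _ => isBounded_prod _ fun p _ => translateFn_bdd hD p)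

/-- The Lagrange denominator. -/
def lagrangeDenom (N : ℕ) [NeZero N] : ℍ → ℂ :=
  open Classical in
  ∏ q ∈ Finset.univ.erase ((1 : SL(2, ℤ)) : Coset N),
    (sepForm N - translateFn N 12 (sepForm N) q)

theorem mul_lagrangeDenom_mem (hf : IsForm (Gamma0 N) k f) :
    f * lagrangeDenom N ∈
      intForms (Gamma0 N) (k + 12 * ((Fintype.card (Coset N) : ℤ) - 1)) := by
  classical
  have hD : IsForm (Gamma0 N) 12 (sepForm N) := isForm_of_mem_intForms (sepForm_mem N)
  set G := translateFn N 12 (sepForm N) with hG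
  set D := sepForm N with hDdef
  set n := Fintype.card (Coset N) with hn
  have hn0 : 0 < n := Fintype.card_pos
  have hsum : f * lagrangeDenom N =
      ∑ q : Coset N, translateFn N k f q * ∏ p ∈ Finset.univ.erase q, (D - G p) := by
    rw [Finset.sum_eq_single ((1 : SL(2, ℤ)) : Coset N)]
    · rw [translateFn_one hf]; rfl
    · intro q _ hq
      rw [Finset.prod_eq_zero (Finset.mem_erase.mpr ⟨Ne.symm hq, Finset.mem_univ _⟩)
        (by rw [hG, translateFn_one hD, sub_self]), mul_zero]
    · simp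
  have hexp : f * lagrangeDenom N = ∑ j ∈ Finset.range n,
      ((-1 : ℂ) ^ j) • (D ^ (n - 1 - j) * lagrangeCoeff N k f j) := by
    rw [hsum]
    simp only [prod_sub_expand, Finset.card_erase_of_mem (Finset.mem_univ _), Finset.card_univ,
      ← hn, Nat.sub_add_cancel hn0, Finset.mul_sum]
    rw [Finset.sum_comm]
    refine Finset.sum_congr rfl fun j _ => ?_
    rw [lagrangeCoeff, Finset.mul_sum, Finset.smul_sum]
    refine Finset.sum_congr rfl fun q _ => ?_
    funext z
    simp [hG]
    ring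
  rw [hexp]
  refine sum_mem fun j hj => Submodule.smul_mem _ _ ?_
  have hj' := Finset.mem_range.mp hj
  have h1 := pow_mem_intForms (T_mem_Gamma0 N) (sepForm_mem N) (n - 1 - j)
  have h2 := intForms_mono (le_top : Gamma0 N ≤ ⊤)
    (mem_intForms_levelOne (isForm_lagrangeCoeff hf j))
  have h3 := mul_mem_intForms (T_mem_Gamma0 N) h1 h2
  rwa [show (12 : ℤ) * ((n - 1 - j : ℕ) : ℤ) + (k + 12 * j) = k + 12 * ((n : ℤ) - 1) by
    rw [Nat.cast_sub (by omega), Nat.cast_sub (by omega)]; ring] at h3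

theorem lagrangeDenom_mem :
    lagrangeDenom N ∈ intForms (Gamma0 N) (12 * ((Fintype.card (Coset N) : ℤ) - 1)) := by
  simpa using mul_lagrangeDenom_mem (isForm_one (Gamma0 N))

theorem lagrangeDenom_ne_zero : lagrangeDenom N ≠ 0 := by
  classical
  have hD : IsForm (Gamma0 N) 12 (sepForm N) := isForm_of_mem_intForms (sepForm_mem N)
  intro h0
  obtain ⟨q, hq, hq0⟩ := (UpperHalfPlane.prod_eq_zero_iff
    (fun q _ => hD.holo.sub (translateFn_holo hD q))).mp h0
  refine (Finset.mem_erase.mp hq).1 ?_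
  induction q using QuotientGroup.induction_on with
  | _ g =>
    rw [translateFn_mk hD, sub_eq_zero] at hq0
    rw [QuotientGroup.eq, mul_one]
    exact mem_Gamma0_of_sepForm_slash N hq0.symm

end Fermat.Agent.MF.IntStruct
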