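import Fermat.Prelude.Def_CuspForm_IntegralStructure
import Fermat.Prelude.Thm_ModularForm_sturm_bound_Gamma0
import Fermat.Prelude.Thm_CongruenceSubgroup_one_mem_strictPeriods_Gamma0
import Fermat.Agent.MF.IntStruct.Relations
import Fermat.Agent.MF.IntStruct.Quotient
import Fermat.Agent.MF.IntStruct.FieldEndo

/-!
# `S_k(Γ₀(N))` is spanned by forms with integral `q`-expansions
-/

set_option autoImplicit false

noncomputable section

open UpperHalfPlane ModularForm CongruenceSubgroup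
open scoped MatrixGroups Manifold

namespace Fermat.Agent.MF.IntStruct

variable {N : ℕ} [NeZero N] {k : ℤ}

/-- Algebraic data characterising the `q`-expansions of cusp forms. -/
structure SeriesData (N : ℕ) (k : ℤ) (φ : PowerSeries ℂ) : Prop where
  data : ∃ (n : ℕ) (a : ℕ → ℍ → ℂ) (w : ℤ) (B A : ℍ → ℂ), 0 < n ∧
    (∀ i < n, IsForm ⊤ (k * ((n : ℤ) - i)) (a i) ∧ (qExpansion 1 (a i)).coeff 0 = 0) ∧
    B ∈ intForms (Gamma0 N) w ∧ A ∈ intForms (Gamma0 N) (k + w) ∧ B ≠ 0 ∧
    qExpansion 1 A = φ * qExpansion 1 B ∧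
    φ ^ n = ∑ i ∈ Finset.range n, qExpansion 1 (a i) * φ ^ i

theorem isForm_coe (f : CuspForm (Gamma0 N) k) : IsForm (Gamma0 N) k f := by
  refine ⟨fun γ hγ => SlashInvariantFormClass.slash_action_eq f _ ⟨γ, hγ, rfl⟩,
    CuspFormClass.holo f, fun γ => ?_⟩
  have hc : IsCusp ((Matrix.SpecialLinearGroup.mapGL ℝ γ) • OnePoint.infty)
      ((Gamma0 N : Subgroup SL(2, ℤ)) : Subgroup (GL (Fin 2) ℝ)) :=
    (Subgroup.IsArithmetic.isCusp_iff_isCusp_SL2Z _).mpr (isCusp_SL2Z_iff'.mpr ⟨γ, rfl⟩)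
  exact ModularFormClass.bdd_at_cusps f hc _ rfl

theorem zero_slash_coe (f : CuspForm (Gamma0 N) k) (γ : SL(2, ℤ)) :
    IsZeroAtImInfty ((⇑f) ∣[k] γ) := by
  have hc : IsCusp ((Matrix.SpecialLinearGroup.mapGL ℝ γ) • OnePoint.infty)
      ((Gamma0 N : Subgroup SL(2, ℤ)) : Subgroup (GL (Fin 2) ℝ)) :=
    (Subgroup.IsArithmetic.isCusp_iff_isCusp_SL2Z _).mpr (isCusp_SL2Z_iff'.mpr ⟨γ, rfl⟩)
  exact CuspFormClass.zero_at_cusps f hc _ rfl

theorem seriesData_coe (f : CuspForm (Gamma0 N) k) : SeriesData N k (qExpansion 1 ⇑f) := by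
  have hf := isForm_coe f
  have hT := T_mem_Gamma0 N
  obtain ⟨n, a, hn, ha, hrel⟩ := exists_monic_relation hf (zero_slash_coe f)
  set w : ℤ := 12 * ((Fintype.card (Coset N) : ℤ) - 1)
  refine ⟨n, a, w, lagrangeDenom N, ⇑f * lagrangeDenom N, hn, fun i hi => ⟨(ha i hi).1,
    coeff_zero_of_zeroAtImInfty T_mem_top (ha i hi).1 (ha i hi).2⟩, lagrangeDenom_mem,
    mul_lagrangeDenom_mem hf, lagrangeDenom_ne_zero,
    qExpansion_mul_forms hT hf (isForm_of_mem_intForms lagrangeDenom_mem), ?_⟩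
  rw [← qExpansion_pow_form hT hf, hrel]
  have hterm : ∀ i ∈ Finset.range n, IsForm (Gamma0 N) (k * n) (a i * ⇑f ^ i) := by
    intro i hi
    have := ((ha i (Finset.mem_range.mp hi)).1.mono le_top).mul (hf.pow i)
    rwa [show k * ((n : ℤ) - i) + k * i = k * n by ring] at this
  rw [qExpansion_sum_forms hT _ hterm]
  refine Finset.sum_congr rfl fun i hi => ?_
  rw [qExpansion_mul_forms hT ((ha i (Finset.mem_range.mp hi)).1.mono le_top) (hf.pow i),
    qExpansion_pow_form hT hf]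

omit [NeZero N] in
theorem SeriesData.map {φ : PowerSeries ℂ} (h : SeriesData N k φ) (σ : ℂ →+* ℂ) :
    SeriesData N k (PowerSeries.map σ φ) := by
  obtain ⟨n, a, w, B, A, hn, ha, hB, hA, hB0, hAB, hrel⟩ := h.data
  have hT := T_mem_Gamma0 N
  choose! a' ha' hqa' using fun i (hi : i < n) =>
    exists_map_qExpansion T_mem_top σ (mem_intForms_levelOne (ha i hi).1)
  obtain ⟨B', hB', hqB'⟩ := exists_map_qExpansion hT σ hB
  obtain ⟨A', hA', hqA'⟩ := exists_map_qExpansion hT σ hA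
  refine ⟨n, a', w, B', A', hn, fun i hi => ⟨isForm_of_mem_intForms (ha' i hi), ?_⟩, hB', hA',
    ?_, ?_, ?_⟩
  · rw [hqa' i hi, PowerSeries.coeff_map, (ha i hi).2, map_zero]
  · intro h0
    apply hB0
    refine (isForm_of_mem_intForms hB).qExpansion_eq_zero hT ?_
    refine (map_eq_zero_iff _ (PowerSeries.map_injective σ σ.injective)).mp ?_
    rw [← hqB', h0, qExpansion_zero]
  · rw [hqA', hAB, map_mul, hqB']
  · rw [← map_pow, hrel, map_sum]
    refine Finset.sum_congr rfl fun i hi => ?_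
    rw [map_mul, map_pow, hqa' i (Finset.mem_range.mp hi)]

theorem SeriesData.exists_cuspForm {φ : PowerSeries ℂ} (h : SeriesData N k φ) :
    ∃ g : CuspForm (Gamma0 N) k, qExpansion 1 ⇑g = φ := by
  obtain ⟨n, a, w, B, A, hn, ha, hB, hA, hB0, hAB, hrel⟩ := h.data
  have hT := T_mem_Gamma0 N
  have hBf := isForm_of_mem_intForms hB
  have hAf := isForm_of_mem_intForms hA
  have hterm : ∀ i ∈ Finset.range n,
      IsForm (Gamma0 N) ((k + w) * n) (a i * A ^ i * B ^ (n - i)) := by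
    intro i hi
    have hi' := Finset.mem_range.mp hi
    have := ((ha i hi').1.mono le_top |>.mul (hAf.pow i)).mul (hBf.pow (n - i))
    rwa [show k * ((n : ℤ) - i) + (k + w) * i + w * ((n - i : ℕ) : ℤ) = (k + w) * n by
      rw [Nat.cast_sub hi'.le]; ring] at this
  have heq : A ^ n = ∑ i ∈ Finset.range n, a i * A ^ i * B ^ (n - i) := by
    refine (hAf.pow n).eq_of_qExpansion_eq hT (isForm_sum _ hterm) ?_
    rw [qExpansion_pow_form hT hAf, qExpansion_sum_forms hT _ hterm, hAB, mul_pow, hrel,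
      Finset.sum_mul]
    refine Finset.sum_congr rfl fun i hi => ?_
    have hi' := Finset.mem_range.mp hi
    rw [qExpansion_mul_forms hT (((ha i hi').1.mono le_top).mul (hAf.pow i)) (hBf.pow _),
      qExpansion_mul_forms hT ((ha i hi').1.mono le_top) (hAf.pow i),
      qExpansion_pow_form hT hAf, qExpansion_pow_form hT hBf, hAB, mul_pow]
    conv_lhs => rw [← Nat.sub_add_cancel hi'.le, pow_add]
    rw [mul_comm (qExpansion 1 B ^ (n - i))]
    ring
  obtain ⟨g, hg, hgB, hgrel⟩ := exists_quotient hn hAf.holo hBf.holo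
    (fun i hi => (ha i hi).1.holo) hB0 heq
  have hinv : ∀ γ ∈ Gamma0 N, g ∣[k] γ = g := by
    intro γ hγ
    have h1 : (g * B) ∣[k + w] γ = g * B := by rw [hgB, hAf.slash_eq γ hγ]
    rw [mul_slash_SL2, hBf.slash_eq γ hγ] at h1
    have h2 : ((g ∣[k] γ) - g) * B = 0 := by rw [sub_mul, h1, sub_self]
    exact sub_eq_zero.mp
      (((UpperHalfPlane.mul_eq_zero_iff ((mdiff_slash_SL hg k γ).sub hg) hBf.holo).mp
        h2).resolve_right hB0)
  have hzero : ∀ γ : SL(2, ℤ), IsZeroAtImInfty (g ∣[k] γ) := by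
    intro γ
    have hs := slash_poly_eq (k := k) hgrel γ
    refine tendsto_zero_of_monic (a := a) (fun i hi =>
      zeroAtImInfty_of_coeff_zero (ha i hi).1 (ha i hi).2) fun τ => ?_
    have := congrFun hs τ
    simp only [Pi.pow_apply, Finset.sum_apply, Pi.mul_apply] at this
    rw [this]
    refine Finset.sum_congr rfl fun i hi => ?_
    rw [(ha i (Finset.mem_range.mp hi)).1.slash_eq γ trivial]
  let G : CuspForm (Gamma0 N) k :=
    { toFun := g
      slash_action_eq' := by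
        rintro _ ⟨γ, hγ, rfl⟩
        exact hinv γ hγ
      holo' := hg
      zero_at_cusps' := fun hc => by
        rw [OnePoint.isZeroAt_iff_forall_SL2Z
          ((Subgroup.IsArithmetic.isCusp_iff_isCusp_SL2Z _).mp hc)]
        intro γ _
        exact hzero γ }
  refine ⟨G, ?_⟩
  have hGf : IsForm (Gamma0 N) k g := isForm_coe G
  have hq : qExpansion 1 g * qExpansion 1 B = φ * qExpansion 1 B := by
    rw [← qExpansion_mul_forms hT hGf hBf, hgB, hAB]
  exact mul_right_cancel₀ (fun h0 => hB0 (hBf.qExpansion_eq_zero hT h0)) hq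

/-- The `q`-expansion as a linear map. -/
def qExpansionLin (N : ℕ) [NeZero N] (k : ℤ) :
    CuspForm (Gamma0 N) k →ₗ[ℂ] PowerSeries ℂ where
  toFun f := qExpansion 1 ⇑f
  map_add' f g := by
    rw [FunLike.coe_add]
    exact qExpansion_add ((isForm_coe f).analyticAt (T_mem_Gamma0 N))
      ((isForm_coe g).analyticAt (T_mem_Gamma0 N))
  map_smul' c f := by
    rw [FunLike.coe_smul, RingHom.id_apply]
    exact qExpansion_smul ((isForm_coe f).analyticAt (T_mem_Gamma0 N)) c

theorem qExpansionLin_injective (N : ℕ) [NeZero N] (k : ℤ) :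
    Function.Injective (qExpansionLin N k) := by
  refine (injective_iff_map_eq_zero _).mpr fun f hf => DFunLike.coe_injective ?_
  exact ((isForm_coe f).qExpansion_eq_zero (T_mem_Gamma0 N) hf).trans FunLike.coe_zero.symm

theorem exists_bound (N : ℕ) [NeZero N] (k : ℤ) :
    ∃ B : ℕ, ∀ s ∈ LinearMap.range (qExpansionLin N k),
      (∀ i < B, PowerSeries.coeff i s = 0) → s = 0 := by
  refine ⟨(k * (Gamma0 N).index).toNat / 12 + 1, ?_⟩
  rintro _ ⟨f, rfl⟩ h
  have hm : (ModularFormClass.modularForm f : ModularForm (Gamma0 N) k) = 0 :=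
    ModularForm.sturm_bound_Gamma0 N _ fun i hi => by
      simpa [qExpansionLin] using h i (Nat.lt_succ_of_le hi)
  have hf : (⇑f : ℍ → ℂ) = 0 := by
    have := congrArg (fun F : ModularForm (Gamma0 N) k => (⇑F : ℍ → ℂ)) hm
    simpa using this
  show qExpansion 1 ⇑f = 0
  rw [hf, qExpansion_zero]

omit [NeZero N] in
theorem mem_intLattice_of_coeff {f : CuspForm (Gamma0 N) k}
    (hf : qExpansion 1 ⇑f ∈ toC.range) : f ∈ CuspForm.intLattice N k := by
  obtain ⟨z, hz⟩ := hf
  refine Submodule.subset_span fun n => ⟨PowerSeries.coeff n z, ?_⟩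
  rw [ModularFormClass.qCoeff, ← hz, coeff_toC]

/-- A cusp form with rational coefficients has bounded denominators. -/
theorem exists_int_smul_mem (f : CuspForm (Gamma0 N) k)
    (hf : ∀ i, ∃ q : ℚ, (q : ℂ) = PowerSeries.coeff i (qExpansion 1 ⇑f)) :
    ∃ m : ℤ, m ≠ 0 ∧ qExpansion 1 ⇑((m : ℂ) • f) ∈ toC.range := by
  choose q hq using hf
  have hφ : ratToC (PowerSeries.mk q) = qExpansion 1 ⇑f := by
    ext i
    rw [coeff_ratToC, PowerSeries.coeff_mk, hq]
  obtain ⟨n, a, w, B, A, -, ha, hB, hA, hB0, hAB, hrel⟩ := (seriesData_coe f).data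
  have hT := T_mem_Gamma0 N
  obtain ⟨m, hm, z, hz⟩ := exists_int_mul_mem_range (φ := PowerSeries.mk q)
    (a := fun i => qExpansion 1 (a i)) (B := qExpansion 1 B) (A := qExpansion 1 A)
    (fun i hi => qExpansion_mem_intSpan T_mem_top (mem_intForms_levelOne (ha i hi).1))
    (qExpansion_mem_intSpan hT hB) (qExpansion_mem_intSpan hT hA)
    (fun h0 => hB0 ((isForm_of_mem_intForms hB).qExpansion_eq_zero hT h0))
    (by rw [hφ, hAB]) (by rw [hφ]; exact hrel)
  refine ⟨m, hm, z, ?_⟩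
  have hz' := congrArg ratToC hz
  rw [map_mul, map_intCast, hφ] at hz'
  rw [show ratToC (toQ z) = toC z from by ext i; simp [coeff_toC, coeff_toQ, coeff_ratToC]] at hz'
  rw [hz', show qExpansion 1 ⇑((m : ℂ) • f) = (m : ℂ) • qExpansion 1 ⇑f from
    map_smul (qExpansionLin N k) (m : ℂ) f, PowerSeries.smul_eq_C_mul, map_intCast]

/-- `S_k(Γ₀(N))` is spanned by forms with integral `q`-expansion, for every weight. -/
theorem hasIntegralStructure (N : ℕ) [NeZero N] (k : ℤ) : CuspForm.HasIntegralStructure N k := by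
  rw [CuspForm.HasIntegralStructure, eq_top_iff]
  obtain ⟨B, hB⟩ := exists_bound N k
  have hspan := le_span_rational B hB (by
    rintro σ _ ⟨f, rfl⟩
    exact ((seriesData_coe f).map σ).exists_cuspForm)
  have hle : LinearMap.range (qExpansionLin N k) ≤
      (Submodule.span ℂ ((CuspForm.intLattice N k : Set (CuspForm (Gamma0 N) k)))).map
        (qExpansionLin N k) := by
    refine hspan.trans (Submodule.span_le.mpr ?_)
    rintro _ ⟨⟨f, rfl⟩, hrat⟩
    obtain ⟨m, hm, hmem⟩ := exists_int_smul_mem f hrat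
    refine ⟨f, ?_, rfl⟩
    have := Submodule.smul_mem _ (m : ℂ)⁻¹
      (Submodule.subset_span (R := ℂ) (mem_intLattice_of_coeff hmem))
    rwa [smul_smul, inv_mul_cancel₀ (by exact_mod_cast hm), one_smul] at this
  intro f _
  obtain ⟨g, hg, hgf⟩ := hle ⟨f, rfl⟩
  exact qExpansionLin_injective N k hgf ▸ hg

end Fermat.Agent.MF.IntStruct
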