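import Fermat.Prelude.Def_CuspForm_HeckeAlgebra
import Fermat.Prelude.Def_CuspForm_IntegralLattice
import Fermat.Prelude.Thm_CuspForm_intLattice_fg
import Fermat.Prelude.Thm_CuspForm_mem_intLattice_of_mem_heckeAlgebra
import Fermat.Agent.MF.IntStruct.Main
import Fermat.Agent.Eigen.QCoeff
import Fermat.Agent.Eigen.Extend

/-!
# Consequences of the integral structure for the Hecke algebra

* `hasIntegralBasis`, finite-dimensionality of `S_k(Γ₀(N))`;
* the Hecke algebra is a finite free `ℤ`-module in every weight;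
* `ℂ ⊗ T → End S_k` is injective;
* the pairing `(f, t) ↦ a₁(t f)` between `S_k` and the complex span of `T` is perfect.
-/

set_option autoImplicit false
set_option linter.style.haveILetI false
set_option linter.unusedVariables false

noncomputable section

open UpperHalfPlane CongruenceSubgroup ModularFormClass
open scoped TensorProduct

namespace Fermat.Agent.MF.IntStruct

open Fermat.Agent.Eigen (qCoeffLin qCoeff_zero_form cuspForm_ext_qCoeff)

variable {N : ℕ} [NeZero N] {k : ℤ} {S : Set ℕ}

theorem hasIntegralBasis (N : ℕ) [NeZero N] : CuspForm.HasIntegralBasis N := by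
  refine eq_top_iff.mpr ((hasIntegralStructure N 2).ge.trans (Submodule.span_le.mpr ?_))
  intro g hg
  refine Submodule.span_le_restrictScalars ℤ ℂ _ (Submodule.span_mono ?_ hg)
  intro f hf n
  obtain ⟨m, hm⟩ := hf n
  rw [Subring.mem_bot]
  exact ⟨m, hm.symm⟩

omit [NeZero N] in
theorem exists_int_qCoeff {g : CuspForm (Gamma0 N) k} (hg : g ∈ CuspForm.intLattice N k) (n : ℕ) :
    ∃ m : ℤ, qCoeff g n = (m : ℂ) := by
  induction hg using Submodule.span_induction with
  | mem x hx => exact hx n
  | zero => exact ⟨0, by rw [qCoeff_zero_form, Int.cast_zero]⟩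
  | add x y _ _ hx hy =>
    obtain ⟨a, ha⟩ := hx
    obtain ⟨b, hb⟩ := hy
    exact ⟨a + b, by rw [Fermat.Agent.Eigen.qCoeff_add, ha, hb, Int.cast_add]⟩
  | smul r x _ hx =>
    obtain ⟨a, ha⟩ := hx
    refine ⟨r * a, ?_⟩
    show qCoeffLin N k n (r • x) = _
    rw [map_zsmul, Fermat.Agent.Eigen.qCoeffLin_apply, ha, zsmul_eq_mul, Int.cast_mul]

theorem finiteDimensional_cuspForm (N : ℕ) [NeZero N] (k : ℤ) :
    FiniteDimensional ℂ (CuspForm (Gamma0 N) k) := by
  obtain ⟨s, hs⟩ := CuspForm.intLattice_fg N k
  refine ⟨⟨s, ?_⟩⟩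
  rw [← top_le_iff]
  refine (hasIntegralStructure N k).ge.trans (Submodule.span_le.mpr ?_)
  rw [← hs]
  exact fun x hx => Submodule.span_le_restrictScalars ℤ ℂ _ hx

theorem subsingleton_of_nonpos (hk : k ≤ 0) : Subsingleton (CuspForm (Gamma0 N) k) := by
  refine subsingleton_of_forall_eq 0 fun f => ?_
  have h0 : (ModularFormClass.modularForm f : ModularForm (Gamma0 N) k) = 0 :=
    ModularForm.sturm_bound_Gamma0 N _ fun i hi => by
      have hi0 : i = 0 := by
        have : k * ((Gamma0 N).index : ℤ) ≤ 0 :=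
          mul_nonpos_of_nonpos_of_nonneg hk (Int.natCast_nonneg _)
        rw [Int.toNat_of_nonpos this] at hi
        omega
      subst hi0
      simpa [qCoeff] using Fermat.Agent.Eigen.qCoeff_zero_index f
  refine DFunLike.coe_injective ?_
  have := congrArg (fun F : ModularForm (Gamma0 N) k => (⇑F : ℍ → ℂ)) h0
  simpa using this

/-- Every element of the Hecke algebra preserves the integral lattice. -/
theorem apply_mem_intLattice {t : Module.End ℂ (CuspForm (Gamma0 N) k)}
    (ht : t ∈ CuspForm.heckeAlgebra N k S) {g : CuspForm (Gamma0 N) k}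
    (hg : g ∈ CuspForm.intLattice N k) : t g ∈ CuspForm.intLattice N k := by
  rcases le_or_gt k 0 with hk | hk
  · haveI := subsingleton_of_nonpos (N := N) hk
    rw [Subsingleton.elim (t g) 0]; exact zero_mem _
  · exact CuspForm.mem_intLattice_of_mem_heckeAlgebra (by omega) ht hg

/-- `ℤ`-independent Hecke operators are `ℂ`-independent, in every weight. -/
theorem linearIndependent_complex {ι : Type*} (v : ι → ↥(CuspForm.heckeAlgebra N k S))
    (hv : LinearIndependent ℤ v) :
    LinearIndependent ℂ fun i => (v i : Module.End ℂ (CuspForm (Gamma0 N) k)) := by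
  refine Fermat.Agent.Eigen.linearIndependent_complex_of_int_coord _
    (fun (j : ↥(CuspForm.intLattice N k) × ℕ) =>
      (qCoeffLin N k j.2) ∘ₗ LinearMap.applyₗ (j.1 : CuspForm (Gamma0 N) k))
    (fun x hx => ?_) (fun i j => exists_int_qCoeff (apply_mem_intLattice (v i).2 j.1.2) j.2)
    (hv.map' (CuspForm.heckeAlgebra N k S).val.toLinearMap
      (LinearMap.ker_eq_bot.mpr Subtype.val_injective))
  refine LinearMap.ext_on (hasIntegralStructure N k) fun g hg => cuspForm_ext_qCoeff fun n => ?_
  rw [LinearMap.zero_apply, qCoeff_zero_form]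
  exact hx (⟨g, hg⟩, n)

/-- The action of the Hecke algebra on the integral lattice. -/
def latticeAction (N : ℕ) [NeZero N] (k : ℤ) (S : Set ℕ) :
    ↥(CuspForm.heckeAlgebra N k S) →ₗ[ℤ] Module.End ℤ ↥(CuspForm.intLattice N k) where
  toFun t :=
    { toFun := fun g => ⟨(t : Module.End ℂ (CuspForm (Gamma0 N) k)) g,
        apply_mem_intLattice t.2 g.2⟩
      map_add' := fun x y => Subtype.ext (map_add _ _ _)
      map_smul' := fun c x => Subtype.ext (map_zsmul _ _ _) }
  map_add' s t := rfl
  map_smul' c t := rfl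

theorem latticeAction_injective : Function.Injective (latticeAction N k S) := by
  intro s t h
  refine Subtype.ext (LinearMap.ext_on (hasIntegralStructure N k) fun g hg => ?_)
  exact congrArg Subtype.val (LinearMap.congr_fun h ⟨g, hg⟩)

/-- The Hecke algebra is a finitely generated `ℤ`-module, in every weight. -/
theorem moduleFinite_heckeAlgebra (N : ℕ) [NeZero N] (k : ℤ) (S : Set ℕ) :
    Module.Finite ℤ (CuspForm.heckeAlgebra N k S) := by
  haveI : Module.Finite ℤ ↥(CuspForm.intLattice N k) :=
    Module.Finite.iff_fg.mpr (CuspForm.intLattice_fg N k)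
  haveI : IsAddTorsionFree (CuspForm (Gamma0 N) k) := by
    refine ⟨fun n hn a b hab => smul_right_injective _ (Nat.cast_ne_zero.mpr hn : (n : ℂ) ≠ 0) ?_⟩
    simpa only [Nat.cast_smul_eq_nsmul] using hab
  haveI : Module.Free ℤ ↥(CuspForm.intLattice N k) := Module.free_of_finite_type_torsion_free'
  exact Module.Finite.of_injective (latticeAction N k S) latticeAction_injective

theorem moduleFree_heckeAlgebra (N : ℕ) [NeZero N] (k : ℤ) (S : Set ℕ) :
    Module.Free ℤ (CuspForm.heckeAlgebra N k S) := by
  haveI := moduleFinite_heckeAlgebra N k S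
  exact Module.free_of_finite_type_torsion_free'

/-- The natural map `ℂ ⊗ T → End S_k`. -/
def complexHeckeAction (N : ℕ) [NeZero N] (k : ℤ) (S : Set ℕ) :
    ℂ ⊗[ℤ] ↥(CuspForm.heckeAlgebra N k S) →ₗ[ℂ] Module.End ℂ (CuspForm (Gamma0 N) k) :=
  LinearMap.liftBaseChange ℂ (CuspForm.heckeAlgebra N k S).val.toLinearMap

theorem complexHeckeAction_tmul (c : ℂ) (t : ↥(CuspForm.heckeAlgebra N k S)) :
    complexHeckeAction N k S (c ⊗ₜ t) = c • (t : Module.End ℂ (CuspForm (Gamma0 N) k)) := by
  simp [complexHeckeAction]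

theorem complexHeckeAction_injective : Function.Injective (complexHeckeAction N k S) := by
  haveI := moduleFree_heckeAlgebra N k S
  let b := Module.Free.chooseBasis ℤ ↥(CuspForm.heckeAlgebra N k S)
  have h : (⇑(complexHeckeAction N k S) ∘ ⇑(b.baseChange ℂ)) =
      fun i => (b i : Module.End ℂ (CuspForm (Gamma0 N) k)) := by
    funext i
    simp [complexHeckeAction_tmul]
  refine LinearMap.injective_of_linearIndependent (v := ⇑(b.baseChange ℂ))
    (b.baseChange ℂ).span_eq ?_
  rw [h]
  exact linearIndependent_complex _ b.linearIndependent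

/-- The complex span of the full Hecke algebra. -/
def heckeSpan (N : ℕ) [NeZero N] (k : ℤ) :
    Submodule ℂ (Module.End ℂ (CuspForm (Gamma0 N) k)) :=
  Submodule.span ℂ (CuspForm.heckeAlgebra N k ∅ : Set (Module.End ℂ (CuspForm (Gamma0 N) k)))

/-- The pairing `(f, t) ↦ a₁(t f)`. -/
def heckePairing (N : ℕ) [NeZero N] (k : ℤ) :
    CuspForm (Gamma0 N) k →ₗ[ℂ] ↥(heckeSpan N k) →ₗ[ℂ] ℂ :=
  LinearMap.mk₂ ℂ (fun f t => qCoeff ((t : Module.End ℂ (CuspForm (Gamma0 N) k)) f) 1)
    (fun f g t => by rw [map_add, Fermat.Agent.Eigen.qCoeff_add])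
    (fun c f t => by rw [map_smul, Fermat.Agent.Eigen.qCoeff_smul, smul_eq_mul])
    (fun f s t => by rw [Submodule.coe_add, LinearMap.add_apply, Fermat.Agent.Eigen.qCoeff_add])
    (fun c f t => by
      rw [Submodule.coe_smul, LinearMap.smul_apply, Fermat.Agent.Eigen.qCoeff_smul, smul_eq_mul])

@[simp] theorem heckePairing_apply (f : CuspForm (Gamma0 N) k) (t : ↥(heckeSpan N k)) :
    heckePairing N k f t = qCoeff ((t : Module.End ℂ (CuspForm (Gamma0 N) k)) f) 1 := rfl

/-- A form killed by all `f ↦ a₁(t f)` is zero. -/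
theorem eq_zero_of_forall_qCoeff_one (f : CuspForm (Gamma0 N) k)
    (hf : ∀ t ∈ CuspForm.heckeAlgebra N k ∅, qCoeff (t f) 1 = 0) : f = 0 := by
  suffices h : ∀ (n : ℕ) (f : CuspForm (Gamma0 N) k),
      (∀ t ∈ CuspForm.heckeAlgebra N k ∅, qCoeff (t f) 1 = 0) → qCoeff f n = 0 from
    cuspForm_ext_qCoeff fun n => by rw [h n f hf, qCoeff_zero_form]
  intro n
  induction n using Nat.strong_induction_on with
  | _ n ih =>
    intro f hf
    rcases eq_or_ne n 0 with rfl | hn0
    · exact Fermat.Agent.Eigen.qCoeff_zero_index f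
    rcases eq_or_ne n 1 with rfl | hn1
    · simpa using hf 1 (one_mem _)
    obtain ⟨p, hp, m, rfl⟩ := Nat.exists_prime_and_dvd hn1
    have hm : m < p * m := lt_mul_of_one_lt_left (Nat.pos_of_ne_zero (by
      rintro rfl; simp at hn0)) hp.one_lt
    rw [mul_comm p m]
    by_cases hpN : p ∣ N
    · have hmem := CuspForm.heckeULin_mem_heckeAlgebra (k := k) hp hpN (Set.notMem_empty p)
      have h := ih m hm (CuspForm.heckeULin k hpN f) fun t ht => by
        simpa using hf (t * CuspForm.heckeULin k hpN) (mul_mem ht hmem)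
      rwa [Fermat.Agent.Eigen.qCoeff_heckeULin] at h
    · have hmem := CuspForm.heckeTLin_mem_heckeAlgebra (k := k) hp hpN (Set.notMem_empty p)
      have h := ih m hm (CuspForm.heckeTLin k hp hpN f) fun t ht => by
        simpa using hf (t * CuspForm.heckeTLin k hp hpN) (mul_mem ht hmem)
      rw [Fermat.Agent.Eigen.qCoeff_heckeTLin,
        ih (m / p) ((Nat.div_le_self m p).trans_lt hm) f hf] at h
      simpa using h

theorem heckePairing_injective : Function.Injective (heckePairing N k) := by
  refine (injective_iff_map_eq_zero _).mpr fun f hf => eq_zero_of_forall_qCoeff_one f fun t ht => ?_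
  exact LinearMap.congr_fun hf ⟨t, Submodule.subset_span ht⟩

theorem heckePairing_flip_injective : Function.Injective (heckePairing N k).flip := by
  refine (injective_iff_map_eq_zero _).mpr fun s hs => ?_
  refine Subtype.ext (LinearMap.ext fun f => ?_)
  rw [Submodule.coe_zero, LinearMap.zero_apply]
  refine eq_zero_of_forall_qCoeff_one _ fun t ht => ?_
  have hcomm : t * (s : Module.End ℂ (CuspForm (Gamma0 N) k)) =
      (s : Module.End ℂ (CuspForm (Gamma0 N) k)) * t := by
    obtain ⟨u, hu⟩ := s
    clear hs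
    induction hu using Submodule.span_induction with
    | mem x hx =>
      have := mul_comm' (⟨t, ht⟩ : ↥(CuspForm.heckeAlgebra N k ∅)) ⟨x, hx⟩
      exact congrArg Subtype.val this
    | zero => simp
    | add x y _ _ hx hy => rw [mul_add, add_mul, hx, hy]
    | smul c x _ hx => rw [mul_smul_comm, smul_mul_assoc, hx]
  rw [← Module.End.mul_apply, hcomm, Module.End.mul_apply]
  exact LinearMap.congr_fun hs (t f)

/-- The pairing `(f, t) ↦ a₁(t f)` is perfect. -/
theorem heckePairing_isPerfPair : (heckePairing N k).IsPerfPair := by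
  haveI := finiteDimensional_cuspForm N k
  exact LinearMap.IsPerfPair.of_injective heckePairing_injective heckePairing_flip_injective

theorem finrank_heckeSpan :
    Module.finrank ℂ ↥(heckeSpan N k) = Module.finrank ℂ (CuspForm (Gamma0 N) k) := by
  haveI := finiteDimensional_cuspForm N k
  apply le_antisymm
  · exact (LinearMap.finrank_le_finrank_of_injective heckePairing_flip_injective).trans
      Subspace.dual_finrank_eq.le
  · exact (LinearMap.finrank_le_finrank_of_injective heckePairing_injective).trans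
      Subspace.dual_finrank_eq.le

end Fermat.Agent.MF.IntStruct
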