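import Mathlib.RingTheory.PowerSeries.NoZeroDivisors
import Mathlib.RingTheory.PowerSeries.Basic
import Mathlib.LinearAlgebra.Basis.VectorSpace
import Mathlib.Analysis.Complex.Basic
import Mathlib.LinearAlgebra.Dual.Lemmas
import Mathlib.RingTheory.Int.Basic

/-!
# Series with integral coefficients: spans, bounded denominators, normality of `ℤ⟦X⟧`
-/

set_option autoImplicit false

noncomputable section

open PowerSeries

namespace Fermat.Agent.MF.IntStruct

/-- Integral series inside complex series. -/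
def toC : PowerSeries ℤ →+* PowerSeries ℂ := PowerSeries.map (Int.castRingHom ℂ)

/-- Integral series inside rational series. -/
def toQ : PowerSeries ℤ →+* PowerSeries ℚ := PowerSeries.map (Int.castRingHom ℚ)

/-- Rational series inside complex series. -/
def ratToC : PowerSeries ℚ →+* PowerSeries ℂ := PowerSeries.map (algebraMap ℚ ℂ)

theorem coeff_toC (z : PowerSeries ℤ) (n : ℕ) : coeff n (toC z) = ((coeff n z : ℤ) : ℂ) := by
  simp [toC]

theorem coeff_toQ (z : PowerSeries ℤ) (n : ℕ) : coeff n (toQ z) = ((coeff n z : ℤ) : ℚ) := by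
  simp [toQ]

theorem coeff_ratToC (z : PowerSeries ℚ) (n : ℕ) : coeff n (ratToC z) = ((coeff n z : ℚ) : ℂ) := by
  simp [ratToC]

theorem ratToC_injective : Function.Injective ratToC :=
  PowerSeries.map_injective _ (RingHom.injective _)

theorem mem_range_toQ_iff {y : PowerSeries ℚ} :
    y ∈ toQ.range ↔ ∀ n, ∃ a : ℤ, (a : ℚ) = coeff n y := by
  constructor
  · rintro ⟨z, rfl⟩ n
    exact ⟨coeff n z, (coeff_toQ z n).symm⟩
  · intro h
    choose a ha using h
    exact ⟨PowerSeries.mk a, by ext n; simp [coeff_toQ, ha]⟩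

/-- A rational number whose powers times a fixed nonzero integer are all integers is an integer. -/
theorem exists_int_of_forall_mul_pow {q : ℚ} {c : ℤ} (hc : c ≠ 0)
    (h : ∀ j : ℕ, ∃ a : ℤ, (a : ℚ) = c * q ^ j) : ∃ a : ℤ, (a : ℚ) = q := by
  refine ⟨q.num, ?_⟩
  suffices hd : q.den = 1 from Rat.coe_int_num_of_den_eq_one hd
  by_contra hne
  have h2 : 2 ≤ q.den := by have := q.den_pos; omega
  obtain ⟨a, ha⟩ := h c.natAbs
  have hq : q ^ c.natAbs = (q.num : ℚ) ^ c.natAbs / (q.den : ℚ) ^ c.natAbs := by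
    rw [← div_pow, Rat.num_div_den]
  rw [hq, mul_div_assoc', eq_div_iff (by positivity)] at ha
  have ha' : a * (q.den : ℤ) ^ c.natAbs = c * q.num ^ c.natAbs := by exact_mod_cast ha
  have hdvd : (q.den ^ c.natAbs) ∣ c.natAbs * q.num.natAbs ^ c.natAbs := by
    have := congrArg Int.natAbs ha'
    simp only [Int.natAbs_mul, Int.natAbs_pow, Int.natAbs_natCast] at this
    exact ⟨a.natAbs, by rw [← this, mul_comm]⟩
  have hle : q.den ^ c.natAbs ≤ c.natAbs :=
    Nat.le_of_dvd (Int.natAbs_pos.mpr hc)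
      ((Nat.Coprime.pow _ _ q.reduced.symm).dvd_of_dvd_mul_right hdvd)
  exact absurd hle (not_le.mpr (Nat.lt_pow_self (by omega)))

theorem exists_int_eq_coeff_zero {b y : PowerSeries ℚ} (hb : b ≠ 0)
    (h : ∀ j : ℕ, b * y ^ j ∈ toQ.range) : ∃ a : ℤ, (a : ℚ) = coeff 0 y := by
  obtain ⟨r, hr, hlt⟩ : ∃ r, coeff r b ≠ 0 ∧ ∀ i < r, coeff i b = 0 := by
    classical
    have hex : ∃ r, coeff r b ≠ 0 := (PowerSeries.exists_coeff_ne_zero_iff_ne_zero).mpr hb
    exact ⟨Nat.find hex, Nat.find_spec hex, fun i hi => by simpa using Nat.find_min hex hi⟩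
  obtain ⟨c, hc⟩ := mem_range_toQ_iff.mp (by simpa using h 0) r
  refine exists_int_of_forall_mul_pow (c := c) (fun h0 => hr (by simpa [h0] using hc.symm)) ?_
  intro j
  obtain ⟨a, ha⟩ := mem_range_toQ_iff.mp (h j) r
  refine ⟨a, ha.trans ?_⟩
  rw [hc, PowerSeries.coeff_mul, Finset.sum_eq_single (r, 0)]
  · simp [PowerSeries.coeff_zero_eq_constantCoeff, map_pow]
  · rintro ⟨i, l⟩ hil hne
    rw [Finset.mem_antidiagonal] at hil
    simp only at hil ⊢
    have : i < r := by
      rcases Nat.eq_zero_or_pos l with rfl | hl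
      · exact absurd (by simpa using hil) (by simpa using hne)
      · omega
    rw [hlt i this, zero_mul]
  · simp

/-- `ℤ⟦X⟧` is completely integrally closed in `ℚ⟦X⟧`. -/
theorem mem_range_of_forall_mul_pow {b y : PowerSeries ℚ} (hb : b ≠ 0)
    (h : ∀ j : ℕ, b * y ^ j ∈ toQ.range) : y ∈ toQ.range := by
  rw [mem_range_toQ_iff]
  intro n
  induction n generalizing y with
  | zero => exact exists_int_eq_coeff_zero hb h
  | succ n ih =>
    obtain ⟨a₀, ha₀⟩ := exists_int_eq_coeff_zero hb h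
    -- subtract the constant and divide by X
    let y' : PowerSeries ℚ := PowerSeries.mk fun m => coeff (m + 1) y
    have hy : y = PowerSeries.C (a₀ : ℚ) + y' * X := by
      rw [ha₀, add_comm, coeff_zero_eq_constantCoeff]
      exact PowerSeries.eq_shift_mul_X_add_const y
    have h' : ∀ j : ℕ, b * y' ^ j ∈ toQ.range := by
      intro j
      have hC : PowerSeries.C (a₀ : ℚ) ∈ toQ.range := ⟨PowerSeries.C a₀, by simp [toQ]⟩
      have hx : b * (y' * X) ^ j ∈ toQ.range := by
        have : y' * X = y + (-PowerSeries.C (a₀ : ℚ)) := by rw [hy]; ring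
        rw [this, add_pow, Finset.mul_sum]
        refine sum_mem fun i _ => ?_
        rw [show b * (y ^ i * (-PowerSeries.C (a₀ : ℚ)) ^ (j - i) * (j.choose i : PowerSeries ℚ))
          = b * y ^ i * ((-PowerSeries.C (a₀ : ℚ)) ^ (j - i) * (j.choose i : PowerSeries ℚ)) by ring]
        exact mul_mem (h i) (mul_mem (pow_mem (neg_mem hC) _) (natCast_mem _ _))
      rw [mem_range_toQ_iff] at hx ⊢
      intro m
      obtain ⟨a, ha⟩ := hx (m + j)
      refine ⟨a, ha.trans ?_⟩
      rw [mul_pow, ← mul_assoc, PowerSeries.coeff_mul_X_pow]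
    simpa [y'] using ih h'

/-- The `ℂ`-span of the series with integral coefficients; it is a subalgebra. -/
def intSpan : Submodule ℂ (PowerSeries ℂ) := Submodule.span ℂ (Set.range toC)

theorem toC_mem_intSpan (z : PowerSeries ℤ) : toC z ∈ intSpan :=
  Submodule.subset_span ⟨z, rfl⟩

theorem mul_mem_intSpan {s t : PowerSeries ℂ} (hs : s ∈ intSpan) (ht : t ∈ intSpan) :
    s * t ∈ intSpan := by
  have hST : s * t ∈ intSpan * intSpan := Submodule.mul_mem_mul hs ht
  rw [intSpan, Submodule.span_mul_span] at hST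
  refine Submodule.span_mono ?_ hST
  rintro _ ⟨_, ⟨a, rfl⟩, _, ⟨b, rfl⟩, rfl⟩
  exact ⟨a * b, map_mul _ _ _⟩

theorem pow_mem_intSpan {s : PowerSeries ℂ} (hs : s ∈ intSpan) (j : ℕ) : s ^ j ∈ intSpan := by
  induction j with
  | zero => simpa using toC_mem_intSpan 1
  | succ j ih => rw [pow_succ]; exact mul_mem_intSpan ih hs

/-- Apply a rational functional to all coefficients. -/
def coeffFun (lam : ℂ →ₗ[ℚ] ℚ) : PowerSeries ℂ →+ PowerSeries ℚ where
  toFun s := PowerSeries.mk fun n => lam (coeff n s)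
  map_zero' := by ext; simp
  map_add' s t := by ext; simp

theorem coeff_coeffFun (lam : ℂ →ₗ[ℚ] ℚ) (s : PowerSeries ℂ) (n : ℕ) :
    coeff n (coeffFun lam s) = lam (coeff n s) := by
  simp [coeffFun]

theorem coeffFun_mul_ratToC (lam : ℂ →ₗ[ℚ] ℚ) (s : PowerSeries ℂ) (r : PowerSeries ℚ) :
    coeffFun lam (s * ratToC r) = coeffFun lam s * r := by
  ext n
  simp only [coeff_coeffFun, PowerSeries.coeff_mul, map_sum, coeff_ratToC]
  refine Finset.sum_congr rfl fun p _ => ?_
  rw [mul_comm (coeff p.1 s), ← Rat.smul_def, map_smul, smul_eq_mul, mul_comm]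

theorem coeffFun_ratToC (lam : ℂ →ₗ[ℚ] ℚ) (h1 : lam 1 = 1) (r : PowerSeries ℚ) :
    coeffFun lam (ratToC r) = r := by
  ext n
  rw [coeff_coeffFun, coeff_ratToC, show ((coeff n r : ℚ) : ℂ) = (coeff n r : ℚ) • (1 : ℂ) by
    rw [Rat.smul_def, mul_one], map_smul, h1, smul_eq_mul, mul_one]

theorem exists_int_mul_coeffFun_mem (lam : ℂ →ₗ[ℚ] ℚ) {s : PowerSeries ℂ} (hs : s ∈ intSpan) :
    ∃ m : ℤ, m ≠ 0 ∧ (m : PowerSeries ℚ) * coeffFun lam s ∈ toQ.range := by
  suffices h : ∀ t ∈ intSpan, ∀ lam : ℂ →ₗ[ℚ] ℚ,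
      ∃ m : ℤ, m ≠ 0 ∧ (m : PowerSeries ℚ) * coeffFun lam t ∈ toQ.range from h s hs lam
  intro t ht
  induction ht using Submodule.span_induction with
  | mem x hx =>
    obtain ⟨z, rfl⟩ := hx
    intro lam
    refine ⟨(lam 1).den, by exact_mod_cast (lam 1).den_nz, ?_⟩
    rw [mem_range_toQ_iff]
    intro n
    refine ⟨(lam 1).num * coeff n z, ?_⟩
    rw [← map_intCast (PowerSeries.C (R := ℚ)), PowerSeries.coeff_C_mul, coeff_coeffFun, coeff_toC,
      show ((coeff n z : ℤ) : ℂ) = ((coeff n z : ℤ) : ℚ) • (1 : ℂ) by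
        rw [Rat.smul_def, mul_one]; simp, map_smul, smul_eq_mul]
    push_cast
    rw [← Rat.mul_den_eq_num]
    ring
  | zero => exact fun lam => ⟨1, one_ne_zero, by simp⟩
  | add x y _ _ hx hy =>
    intro lam
    obtain ⟨a, ha, hax⟩ := hx lam
    obtain ⟨b, hb, hby⟩ := hy lam
    refine ⟨a * b, mul_ne_zero ha hb, ?_⟩
    rw [map_add, show ((a * b : ℤ) : PowerSeries ℚ) * (coeffFun lam x + coeffFun lam y)
      = (b : PowerSeries ℚ) * ((a : PowerSeries ℚ) * coeffFun lam x)
        + (a : PowerSeries ℚ) * ((b : PowerSeries ℚ) * coeffFun lam y) by push_cast; ring]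
    exact add_mem (mul_mem (intCast_mem _ _) hax) (mul_mem (intCast_mem _ _) hby)
  | smul c x _ hx =>
    intro lam
    obtain ⟨m, hm, hmx⟩ := hx (lam.comp (LinearMap.mulLeft ℚ c))
    refine ⟨m, hm, ?_⟩
    convert hmx using 2
    ext n
    simp [coeff_coeffFun]

theorem exists_functional_one : ∃ lam : ℂ →ₗ[ℚ] ℚ, lam 1 = 1 := by
  obtain ⟨g, hg⟩ := (Algebra.linearMap ℚ ℂ).exists_leftInverse_of_injective
    (LinearMap.ker_eq_bot.mpr (algebraMap ℚ ℂ).injective)
  exact ⟨g, by simpa using LinearMap.congr_fun hg 1⟩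

theorem exists_functional_ne_zero {c : ℂ} (hc : c ≠ 0) : ∃ lam : ℂ →ₗ[ℚ] ℚ, lam c ≠ 0 := by
  by_contra h
  exact hc ((Module.forall_dual_apply_eq_zero_iff ℚ c).mp fun lam => by
    by_contra hl
    exact h ⟨lam, hl⟩)

/-- A rational series which is integral over the span of integral series, and a quotient of two
such, has bounded denominators. -/
theorem exists_int_mul_mem_range {φ : PowerSeries ℚ} {B A : PowerSeries ℂ} {n : ℕ}
    {a : ℕ → PowerSeries ℂ} (ha : ∀ i < n, a i ∈ intSpan) (hB : B ∈ intSpan)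
    (hA : A ∈ intSpan) (hB0 : B ≠ 0) (hAB : ratToC φ * B = A)
    (hrel : ratToC φ ^ n = ∑ i ∈ Finset.range n, a i * ratToC φ ^ i) :
    ∃ m : ℤ, m ≠ 0 ∧ (m : PowerSeries ℚ) * φ ∈ toQ.range := by
  obtain ⟨one, hone⟩ := exists_functional_one
  obtain ⟨r, hr⟩ := (PowerSeries.exists_coeff_ne_zero_iff_ne_zero).mpr hB0
  obtain ⟨lam, hlam⟩ := exists_functional_ne_zero hr
  -- rational relations
  have hrel' : φ ^ n = ∑ i ∈ Finset.range n, coeffFun one (a i) * φ ^ i := by
    have := congrArg (coeffFun one) hrel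
    rw [← map_pow, coeffFun_ratToC one hone, map_sum] at this
    rw [this]
    refine Finset.sum_congr rfl fun i _ => ?_
    rw [← map_pow, coeffFun_mul_ratToC]
  have hAB' : φ * coeffFun lam B = coeffFun lam A := by
    have := congrArg (coeffFun lam) hAB
    rwa [mul_comm, coeffFun_mul_ratToC, mul_comm] at this
  have hb0 : coeffFun lam B ≠ 0 := fun h => hlam (by
    rw [← coeff_coeffFun, h, map_zero])
  -- clear denominators
  choose! d hd hda using fun i (hi : i < n) => exists_int_mul_coeffFun_mem one (ha i hi)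
  obtain ⟨dA, hdA, hA'⟩ := exists_int_mul_coeffFun_mem lam hA
  obtain ⟨dB, hdB, hB'⟩ := exists_int_mul_coeffFun_mem lam hB
  set m : ℤ := ∏ i ∈ Finset.range n, d i with hm
  have hm0 : m ≠ 0 := Finset.prod_ne_zero_iff.mpr fun i hi => hd i (Finset.mem_range.mp hi)
  refine ⟨m, hm0, ?_⟩
  set y := (m : PowerSeries ℚ) * φ with hy
  set β := ((dA * dB : ℤ) : PowerSeries ℚ) * coeffFun lam B with hβ
  have hdAB : ((dA * dB : ℤ) : PowerSeries ℚ) ≠ 0 := by
    rw [← map_intCast (PowerSeries.C (R := ℚ))]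
    exact (map_ne_zero_iff _ PowerSeries.C_injective).mpr (by exact_mod_cast mul_ne_zero hdA hdB)
  have hβ0 : β ≠ 0 := mul_ne_zero hdAB hb0
  refine mem_range_of_forall_mul_pow (b := β ^ n) (pow_ne_zero _ hβ0) ?_
  have hβmem : β ∈ toQ.range := by
    rw [hβ, Int.cast_mul, mul_assoc]
    exact mul_mem (intCast_mem _ _) hB'
  have hyβ : y * β ∈ toQ.range := by
    have : y * β = (m : PowerSeries ℚ) * (dB : PowerSeries ℚ) *
        ((dA : PowerSeries ℚ) * coeffFun lam A) := by
      rw [← hAB', hy, hβ]; push_cast; ring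
    rw [this]
    exact mul_mem (mul_mem (intCast_mem _ _) (intCast_mem _ _)) hA'
  have hpoly : ∀ i < n, (m : PowerSeries ℚ) ^ (n - i) * coeffFun one (a i) ∈ toQ.range := by
    intro i hi
    obtain ⟨e, he⟩ : d i ∣ m := Finset.dvd_prod_of_mem _ (Finset.mem_range.mpr hi)
    rw [← Nat.sub_add_cancel (show 1 ≤ n - i by omega), pow_succ, mul_assoc]
    refine mul_mem (pow_mem (intCast_mem _ _) _) ?_
    rw [he, Int.cast_mul, mul_comm (d i : PowerSeries ℚ), mul_assoc]
    exact mul_mem (intCast_mem _ _) (hda i hi)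
  have hyn : y ^ n =
      ∑ i ∈ Finset.range n, ((m : PowerSeries ℚ) ^ (n - i) * coeffFun one (a i)) * y ^ i := by
    rw [hy, mul_pow, hrel', Finset.mul_sum]
    refine Finset.sum_congr rfl fun i hi => ?_
    have hi' : n - i + i = n := Nat.sub_add_cancel (Finset.mem_range.mp hi).le
    conv_lhs => rw [← hi', pow_add]
    ring
  intro j
  induction j using Nat.strong_induction_on with
  | _ j ih =>
    rcases le_or_gt j n with hj | hj
    · rw [show β ^ n * y ^ j = β ^ (n - j) * (y * β) ^ j by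
        conv_lhs => rw [← Nat.sub_add_cancel hj, pow_add]
        ring]
      exact mul_mem (pow_mem hβmem _) (pow_mem hyβ _)
    · rw [show y ^ j = y ^ (j - n) * y ^ n by rw [← pow_add, Nat.sub_add_cancel hj.le], hyn,
        Finset.mul_sum, Finset.mul_sum]
      refine sum_mem fun i hi => ?_
      have := Finset.mem_range.mp hi
      rw [show β ^ n * (y ^ (j - n) * ((m : PowerSeries ℚ) ^ (n - i) * coeffFun one (a i) * y ^ i))
        = (m : PowerSeries ℚ) ^ (n - i) * coeffFun one (a i) * (β ^ n * y ^ (j - n + i)) by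
        rw [pow_add]; ring]
      exact mul_mem (hpoly i this) (ih _ (by omega))

end Fermat.Agent.MF.IntStruct
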