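import Mathlib.NumberTheory.ModularForms.QExpansion
import Mathlib.NumberTheory.ModularForms.NormTrace
import Mathlib.NumberTheory.ModularForms.CongruenceSubgroups
import Fermat.Agent.MF.IntStruct.Series

/-!
# Forms of arbitrary weight as functions, and their integrally spanned part
-/

set_option autoImplicit false

noncomputable section

open UpperHalfPlane ModularForm
open scoped MatrixGroups Manifold

namespace Fermat.Agent.MF.IntStruct

/-- A holomorphic function on `ℍ` of weight `k` for `Γ`, bounded at all cusps. -/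
structure IsForm (Γ : Subgroup SL(2, ℤ)) (k : ℤ) (f : ℍ → ℂ) : Prop where
  slash_eq : ∀ γ ∈ Γ, f ∣[k] γ = f
  holo : MDiff f
  bdd : ∀ γ : SL(2, ℤ), IsBoundedAtImInfty (f ∣[k] γ)

variable {Γ Δ' : Subgroup SL(2, ℤ)} {k l : ℤ} {f g : ℍ → ℂ}

theorem IsForm.mono (hf : IsForm Γ k f) (h : Δ' ≤ Γ) : IsForm Δ' k f :=
  ⟨fun γ hγ => hf.slash_eq γ (h hγ), hf.holo, hf.bdd⟩

theorem IsForm.bdd_self (hf : IsForm Γ k f) : IsBoundedAtImInfty f := by
  simpa using hf.bdd 1

theorem mdiff_slash_SL (hf : MDiff f) (k : ℤ) (γ : SL(2, ℤ)) : MDiff (f ∣[k] γ) :=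
  hf.slash k _

theorem isForm_zero (Γ : Subgroup SL(2, ℤ)) (k : ℤ) : IsForm Γ k 0 :=
  ⟨fun γ _ => by simp, mdifferentiable_const, fun γ => by
    simpa [IsBoundedAtImInfty] using! Filter.const_boundedAtFilter atImInfty (0 : ℂ)⟩

theorem isForm_one (Γ : Subgroup SL(2, ℤ)) : IsForm Γ 0 1 := by
  have h : ∀ γ : SL(2, ℤ), (1 : ℍ → ℂ) ∣[(0 : ℤ)] γ = 1 := fun γ =>
    ModularForm.is_invariant_one γ
  exact ⟨fun γ _ => h γ, mdifferentiable_const, fun γ => by
    rw [h γ]; simpa [IsBoundedAtImInfty] using! Filter.const_boundedAtFilter atImInfty (1 : ℂ)⟩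

theorem IsForm.add (hf : IsForm Γ k f) (hg : IsForm Γ k g) : IsForm Γ k (f + g) :=
  ⟨fun γ hγ => by rw [SlashAction.add_slash, hf.slash_eq γ hγ, hg.slash_eq γ hγ],
    hf.holo.add hg.holo, fun γ => by rw [SlashAction.add_slash]; exact (hf.bdd γ).add (hg.bdd γ)⟩

theorem IsForm.smul (hf : IsForm Γ k f) (c : ℂ) : IsForm Γ k (c • f) :=
  ⟨fun γ hγ => by rw [SL_smul_slash, hf.slash_eq γ hγ],
    hf.holo.const_smul c, fun γ => by
      rw [SL_smul_slash]; exact Asymptotics.IsBigO.const_smul_left (hf.bdd γ) c⟩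

theorem IsForm.neg (hf : IsForm Γ k f) : IsForm Γ k (-f) := by
  simpa using hf.smul (-1)

theorem IsForm.sub (hf : IsForm Γ k f) (hg : IsForm Γ k g) : IsForm Γ k (f - g) := by
  rw [sub_eq_add_neg]; exact hf.add hg.neg

theorem IsForm.mul (hf : IsForm Γ k f) (hg : IsForm Γ l g) : IsForm Γ (k + l) (f * g) :=
  ⟨fun γ hγ => by rw [mul_slash_SL2, hf.slash_eq γ hγ, hg.slash_eq γ hγ],
    hf.holo.mul hg.holo, fun γ => by rw [mul_slash_SL2]; exact (hf.bdd γ).mul (hg.bdd γ)⟩

theorem IsForm.pow (hf : IsForm Γ k f) (j : ℕ) : IsForm Γ (k * j) (f ^ j) := by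
  induction j with
  | zero => simpa using isForm_one Γ
  | succ j ih =>
    rw [pow_succ, show k * ((j + 1 : ℕ) : ℤ) = k * j + k by push_cast; ring]
    exact ih.mul hf

theorem isForm_sum {ι : Type*} (s : Finset ι) {F : ι → ℍ → ℂ}
    (h : ∀ i ∈ s, IsForm Γ k (F i)) : IsForm Γ k (∑ i ∈ s, F i) :=
  Finset.sum_induction _ (IsForm Γ k) (fun _ _ => IsForm.add) (isForm_zero Γ k) h

theorem pow_slash_SL2 (f : ℍ → ℂ) (k : ℤ) (j : ℕ) (γ : SL(2, ℤ)) :
    (f ^ j) ∣[k * j] γ = (f ∣[k] γ) ^ j := by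
  induction j with
  | zero => simpa using ModularForm.is_invariant_one γ
  | succ j ih =>
    rw [pow_succ, show k * ((j + 1 : ℕ) : ℤ) = k * j + k by push_cast; ring, mul_slash_SL2, ih,
      pow_succ]

/-- Slashing a monic polynomial identity. -/
theorem slash_poly_eq {n : ℕ} {a : ℕ → ℍ → ℂ} {k : ℤ}
    (heq : f ^ n = ∑ i ∈ Finset.range n, a i * f ^ i) (γ : SL(2, ℤ)) :
    (f ∣[k] γ) ^ n = ∑ i ∈ Finset.range n, (a i ∣[k * ((n : ℤ) - i)] γ) * (f ∣[k] γ) ^ i := by
  have := congrArg (fun F => F ∣[k * (n : ℤ)] γ) heq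
  simp only [pow_slash_SL2, SlashAction.sum_slash] at this
  rw [this]
  refine Finset.sum_congr rfl fun i _ => ?_
  rw [← pow_slash_SL2, ← mul_slash_SL2]
  congr 1
  ring

variable (hT : ModularGroup.T ∈ Γ)
include hT

theorem IsForm.periodic (hf : IsForm Γ k f) : Function.Periodic (f ∘ ofComplex) 1 := by
  intro z
  simp only [Function.comp_apply]
  rcases le_or_gt z.im 0 with h | h
  · rw [ofComplex_apply_of_im_nonpos h, ofComplex_apply_of_im_nonpos (by simpa using h)]
  · have h1 : ofComplex (z + 1) = (1 : ℝ) +ᵥ ofComplex z := by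
      ext
      rw [ofComplex_apply_of_im_pos (by simpa using h), coe_vadd, ofComplex_apply_of_im_pos h]
      push_cast; ring
    have := congrFun (hf.slash_eq _ hT) (ofComplex z)
    rw [SL_slash_apply, modular_T_smul, ModularGroup.denom_apply] at this
    rw [h1]
    simpa [ModularGroup.denom_apply, ModularGroup.T] using this

theorem IsForm.analyticAt (hf : IsForm Γ k f) : AnalyticAt ℂ (cuspFunction 1 f) 0 :=
  UpperHalfPlane.analyticAt_cuspFunction_zero one_pos (hf.periodic hT) hf.holo hf.bdd_self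

theorem IsForm.qExpansion_eq_zero (hf : IsForm Γ k f) (h : qExpansion 1 f = 0) : f = 0 :=
  (qExpansion_eq_zero_iff one_pos (hf.periodic hT) hf.holo hf.bdd_self).mp h

theorem IsForm.eq_of_qExpansion_eq (hf : IsForm Γ k f) (hg : IsForm Γ k g)
    (h : qExpansion 1 f = qExpansion 1 g) : f = g := by
  rw [← sub_eq_zero]
  refine (hf.sub hg).qExpansion_eq_zero hT ?_
  rw [qExpansion_sub (hf.analyticAt hT) (hg.analyticAt hT), h, sub_self]

theorem qExpansion_mul_forms (hf : IsForm Γ k f) (hg : IsForm Γ l g) :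
    qExpansion 1 (f * g) = qExpansion 1 f * qExpansion 1 g :=
  qExpansion_mul (hf.analyticAt hT) (hg.analyticAt hT)

theorem qExpansion_pow_form (hf : IsForm Γ k f) (j : ℕ) :
    qExpansion 1 (f ^ j) = qExpansion 1 f ^ j := by
  induction j with
  | zero => simpa using qExpansion_one 1
  | succ j ih => rw [pow_succ, qExpansion_mul_forms hT (hf.pow j) hf, ih, pow_succ]

theorem qExpansion_sum_forms {ι : Type*} (s : Finset ι) {F : ι → ℍ → ℂ}
    (h : ∀ i ∈ s, IsForm Γ k (F i)) :
    qExpansion 1 (∑ i ∈ s, F i) = ∑ i ∈ s, qExpansion 1 (F i) := by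
  induction s using Finset.cons_induction with
  | empty => simpa using qExpansion_zero 1
  | cons i s hi ih =>
    rw [Finset.forall_mem_cons] at h
    rw [Finset.sum_cons, Finset.sum_cons, ← ih h.2,
      qExpansion_add (h.1.analyticAt hT) ((isForm_sum s h.2).analyticAt hT)]

omit hT

/-- The span of the forms with integral `q`-expansion. -/
def intForms (Γ : Subgroup SL(2, ℤ)) (k : ℤ) : Submodule ℂ (ℍ → ℂ) :=
  Submodule.span ℂ {f | IsForm Γ k f ∧ qExpansion 1 f ∈ toC.range}

theorem isForm_of_mem_intForms (hf : f ∈ intForms Γ k) : IsForm Γ k f := by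
  induction hf using Submodule.span_induction with
  | mem x hx => exact hx.1
  | zero => exact isForm_zero Γ k
  | add x y _ _ hx hy => exact hx.add hy
  | smul c x _ hx => exact hx.smul c

theorem intForms_mono (h : Δ' ≤ Γ) : intForms Γ k ≤ intForms Δ' k :=
  Submodule.span_mono fun _ hx => ⟨hx.1.mono h, hx.2⟩

theorem one_mem_intForms (Γ : Subgroup SL(2, ℤ)) : (1 : ℍ → ℂ) ∈ intForms Γ 0 :=
  Submodule.subset_span ⟨isForm_one Γ, by rw [qExpansion_one]; exact one_mem _⟩

include hT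

theorem qExpansion_mem_intSpan (hf : f ∈ intForms Γ k) : qExpansion 1 f ∈ intSpan := by
  induction hf using Submodule.span_induction with
  | mem x hx =>
    obtain ⟨z, hz⟩ := hx.2
    exact hz ▸ toC_mem_intSpan z
  | zero => rw [qExpansion_zero]; exact zero_mem _
  | add x y hx hy hx' hy' =>
    rw [qExpansion_add ((isForm_of_mem_intForms hx).analyticAt hT)
      ((isForm_of_mem_intForms hy).analyticAt hT)]
    exact add_mem hx' hy'
  | smul c x hx hx' =>
    rw [qExpansion_smul ((isForm_of_mem_intForms hx).analyticAt hT)]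
    exact Submodule.smul_mem _ _ hx'

theorem exists_map_qExpansion (σ : ℂ →+* ℂ) (hf : f ∈ intForms Γ k) :
    ∃ f' ∈ intForms Γ k, qExpansion 1 f' = PowerSeries.map σ (qExpansion 1 f) := by
  induction hf using Submodule.span_induction with
  | mem x hx =>
    obtain ⟨z, hz⟩ := hx.2
    refine ⟨x, Submodule.subset_span hx, ?_⟩
    rw [← hz]
    ext n
    simp [coeff_toC]
  | zero => exact ⟨0, zero_mem _, by rw [qExpansion_zero, map_zero]⟩
  | add x y hx hy hx' hy' =>
    obtain ⟨x', hx'm, hx'e⟩ := hx'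
    obtain ⟨y', hy'm, hy'e⟩ := hy'
    refine ⟨x' + y', add_mem hx'm hy'm, ?_⟩
    rw [qExpansion_add ((isForm_of_mem_intForms hx'm).analyticAt hT)
      ((isForm_of_mem_intForms hy'm).analyticAt hT),
      qExpansion_add ((isForm_of_mem_intForms hx).analyticAt hT)
      ((isForm_of_mem_intForms hy).analyticAt hT), map_add, hx'e, hy'e]
  | smul c x hx hx' =>
    obtain ⟨x', hx'm, hx'e⟩ := hx'
    refine ⟨σ c • x', Submodule.smul_mem _ _ hx'm, ?_⟩
    rw [qExpansion_smul ((isForm_of_mem_intForms hx'm).analyticAt hT),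
      qExpansion_smul ((isForm_of_mem_intForms hx).analyticAt hT), hx'e,
      PowerSeries.smul_eq_C_mul, PowerSeries.smul_eq_C_mul, map_mul, PowerSeries.map_C]

theorem mul_mem_intForms (hf : f ∈ intForms Γ k) (hg : g ∈ intForms Γ l) :
    f * g ∈ intForms Γ (k + l) := by
  have h := Submodule.mul_mem_mul hf hg
  rw [intForms, intForms, Submodule.span_mul_span] at h
  refine Submodule.span_mono ?_ h
  rintro _ ⟨a, ⟨ha, za, hza⟩, b, ⟨hb, zb, hzb⟩, rfl⟩
  refine ⟨ha.mul hb, za * zb, ?_⟩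
  rw [map_mul, hza, hzb, qExpansion_mul_forms hT ha hb]

theorem pow_mem_intForms (hf : f ∈ intForms Γ k) (j : ℕ) : f ^ j ∈ intForms Γ (k * j) := by
  induction j with
  | zero => simpa using one_mem_intForms Γ
  | succ j ih =>
    rw [pow_succ, show k * ((j + 1 : ℕ) : ℤ) = k * j + k by push_cast; ring]
    exact mul_mem_intForms hT ih hf

end Fermat.Agent.MF.IntStruct
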