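import Mathlib.NumberTheory.ModularForms.LevelOne.GradedRing
import Mathlib.NumberTheory.ModularForms.EisensteinSeries.QExpansion
import Fermat.Agent.MF.IntStruct.Forms

/-!
# Forms of level one are spanned by integral ones
-/

set_option autoImplicit false

noncomputable section

open UpperHalfPlane ModularForm ModularFormClass
open scoped MatrixGroups Manifold

namespace Fermat.Agent.MF.IntStruct

variable {k : ℤ} {f : ℍ → ℂ}

theorem T_mem_top : ModularGroup.T ∈ (⊤ : Subgroup SL(2, ℤ)) := trivial

theorem isForm_of_levelOne (F : ModularForm 𝒮ℒ k) : IsForm ⊤ k F := by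
  have h : ∀ γ : SL(2, ℤ), (⇑F) ∣[k] γ = F := fun γ =>
    SlashInvariantFormClass.slash_action_eq F _ ⟨γ, rfl⟩
  refine ⟨fun γ _ => h γ, ModularFormClass.holo F, fun γ => ?_⟩
  rw [h γ]
  exact ModularFormClass.bdd_at_infty F

/-- A level-one form as a bundled Mathlib modular form. -/
def IsForm.toLevelOne (hf : IsForm ⊤ k f) : ModularForm 𝒮ℒ k where
  toFun := f
  slash_action_eq' := by
    rintro _ ⟨γ, rfl⟩
    exact hf.slash_eq γ trivial
  holo' := hf.holo
  bdd_at_cusps' hc := by
    rw [OnePoint.isBoundedAt_iff_forall_SL2Z hc]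
    intro γ _
    exact hf.bdd γ

@[simp] theorem IsForm.coe_toLevelOne (hf : IsForm ⊤ k f) : ⇑hf.toLevelOne = f := rfl

theorem isForm_discriminant : IsForm ⊤ 12 ModularForm.discriminant :=
  isForm_of_levelOne (CuspForm.toModularFormₗ CuspForm.discriminant)

theorem exists_int_smul_eisenstein {n : ℕ} (hn : 3 ≤ n) (h2 : Even n) :
    (⇑(E hn) : ℍ → ℂ) ∈ intForms ⊤ (n : ℤ) := by
  set q : ℚ := -(2 * n / bernoulli n) with hq
  have hform : IsForm ⊤ (n : ℤ) (E hn) := isForm_of_levelOne (E hn)
  have hint : (q.den : ℂ) • (⇑(E hn) : ℍ → ℂ) ∈ intForms ⊤ (n : ℤ) := by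
    refine Submodule.subset_span ⟨hform.smul _, ?_⟩
    refine ⟨PowerSeries.mk fun m =>
      if m = 0 then (q.den : ℤ) else q.num * ArithmeticFunction.sigma (n - 1) m, ?_⟩
    ext m
    rw [qExpansion_smul (hform.analyticAt T_mem_top), coeff_toC, PowerSeries.coeff_smul,
      EisensteinSeries.E_qExpansion_coeff hn h2, PowerSeries.coeff_mk, smul_eq_mul]
    split_ifs with hm
    · simp
    · have hqc : (-(2 * n / bernoulli n : ℂ)) = (q : ℂ) := by rw [hq]; push_cast; ring
      have hqd : (q.den : ℂ) * (q : ℂ) = (q.num : ℂ) := by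
        exact_mod_cast (mul_comm (q.den : ℚ) q).trans (Rat.mul_den_eq_num q)
      rw [hqc, ← mul_assoc, hqd]
      push_cast
      rfl
  have := Submodule.smul_mem _ (q.den : ℂ)⁻¹ hint
  rwa [smul_smul, inv_mul_cancel₀ (by exact_mod_cast q.den_nz), one_smul] at this

theorem discriminant_mem_intForms :
    (ModularForm.discriminant : ℍ → ℂ) ∈ intForms ⊤ 12 := by
  have h4 := exists_int_smul_eisenstein (n := 4) (by norm_num) ⟨2, rfl⟩
  have h6 := exists_int_smul_eisenstein (n := 6) (by norm_num) ⟨3, rfl⟩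
  have hd : (ModularForm.discriminant : ℍ → ℂ) =
      (1728 : ℂ)⁻¹ • ((⇑E₄ : ℍ → ℂ) ^ 3 - (⇑E₆ : ℍ → ℂ) ^ 2) := by
    funext z
    simp [discriminant_eq_E₄_cube_sub_E₆_sq z, div_eq_inv_mul]
  rw [hd]
  refine Submodule.smul_mem _ _ (sub_mem ?_ ?_)
  · simpa using pow_mem_intForms T_mem_top h4 3
  · simpa using pow_mem_intForms T_mem_top h6 2

/-- Forms of level one are spanned by forms with integral `q`-expansion. -/
theorem mem_intForms_levelOne (hf : IsForm ⊤ k f) : f ∈ intForms ⊤ k := by
  rcases lt_or_ge k 0 with hk | hk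
  · have h0 := ModularFormClass.levelOne_neg_weight_eq_zero hk hf.toLevelOne
    rw [IsForm.coe_toLevelOne] at h0
    rw [h0]; exact zero_mem _
  lift k to ℕ using hk
  induction k using Nat.strong_induction_on generalizing f with
  | _ k ih =>
    rcases Nat.even_or_odd k with heven | hodd
    swap
    · have h0 := congrArg (fun F : ModularForm 𝒮ℒ (k : ℤ) => (⇑F : ℍ → ℂ))
        (ModularForm.levelOne_odd_weight_eq_zero (by exact_mod_cast hodd) hf.toLevelOne)
      simp only [IsForm.coe_toLevelOne, FunLike.coe_zero] at h0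
      rw [h0]; exact zero_mem _
    rcases lt_or_ge k 3 with hsmall | hk3
    · interval_cases k
      · obtain ⟨c, hc⟩ := ModularFormClass.levelOne_weight_zero_const (F := ModularForm 𝒮ℒ 0)
          hf.toLevelOne
        have : f = c • (1 : ℍ → ℂ) := by
          funext z; simpa using congrFun hc z
        rw [this]; exact Submodule.smul_mem _ _ (one_mem_intForms _)
      · exact absurd heven (by decide)
      · have h0 : hf.toLevelOne = 0 :=
          rank_zero_iff_forall_zero.mp ModularForm.levelOne_weight_two_rank_zero _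
        have := congrArg (fun F : ModularForm 𝒮ℒ ((2 : ℕ) : ℤ) => (⇑F : ℍ → ℂ)) h0
        simp only [IsForm.coe_toLevelOne, FunLike.coe_zero] at this
        rw [this]; exact zero_mem _
    have hE := exists_int_smul_eisenstein hk3 heven
    set c := (qExpansion 1 f).coeff 0
    have hg : IsForm ⊤ (k : ℤ) (f - c • (⇑(E hk3) : ℍ → ℂ)) :=
      hf.sub ((isForm_of_mem_intForms hE).smul c)
    have hg0 : (qExpansion 1 hg.toLevelOne).coeff 0 = 0 := by
      rw [IsForm.coe_toLevelOne, qExpansion_sub (hf.analyticAt T_mem_top)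
        (((isForm_of_mem_intForms hE).smul c).analyticAt T_mem_top),
        qExpansion_smul ((isForm_of_mem_intForms hE).analyticAt T_mem_top), map_sub,
        PowerSeries.coeff_smul, EisensteinSeries.E_qExpansion_coeff_zero hk3 heven]
      simp [c]
    set h := CuspForm.discriminantEquiv (toCuspForm hg.toLevelOne hg0)
    have hgh : (f - c • (⇑(E hk3) : ℍ → ℂ)) = ModularForm.discriminant * ⇑h := by
      exact (ModularForm.discriminant_mul_discriminantEquiv
        (toCuspForm hg.toLevelOne hg0)).symm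
    have hh : (⇑h : ℍ → ℂ) ∈ intForms ⊤ ((k : ℤ) - 12) := by
      rcases lt_or_ge k 12 with hlt | hge
      · have h0 := ModularFormClass.levelOne_neg_weight_eq_zero (k := (k : ℤ) - 12) (by omega) h
        rw [h0]; exact zero_mem _
      · have he : ((k - 12 : ℕ) : ℤ) = (k : ℤ) - 12 := by omega
        have := ih (k - 12) (by omega) (f := ⇑h) (by rw [he]; exact isForm_of_levelOne h)
        rwa [he] at this
    have hprod := mul_mem_intForms T_mem_top discriminant_mem_intForms hh
    rw [show (12 : ℤ) + ((k : ℤ) - 12) = k by ring, ← hgh] at hprod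
    simpa using add_mem hprod (Submodule.smul_mem _ c hE)

theorem coeff_zero_of_zeroAtImInfty {Γ : Subgroup SL(2, ℤ)} (hT : ModularGroup.T ∈ Γ)
    (hf : IsForm Γ k f) (h : IsZeroAtImInfty f) : (qExpansion 1 f).coeff 0 = 0 := by
  rw [UpperHalfPlane.qExpansion_coeff_zero one_pos (hf.analyticAt hT) (hf.periodic hT)]
  exact h.valueAtInfty_eq_zero

theorem zeroAtImInfty_of_coeff_zero (hf : IsForm ⊤ k f)
    (h : (qExpansion 1 f).coeff 0 = 0) : IsZeroAtImInfty f := by
  exact isZeroAtImInfty_of_valueAtInfty_eq_zero hf.toLevelOne <| by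
    rwa [IsForm.coe_toLevelOne, ← UpperHalfPlane.qExpansion_coeff_zero one_pos
      (hf.analyticAt T_mem_top) (hf.periodic T_mem_top)]

end Fermat.Agent.MF.IntStruct
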