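import Fermat.Prelude.Def_ModularForm_HeckeOperator
import Fermat.Agent.MF.IntStruct.LevelOne

/-!
# A form on `Γ₀(N)` with integral expansion separating the cosets: `Δ(Nz)`
-/

set_option autoImplicit false

noncomputable section

open UpperHalfPlane ModularForm CongruenceSubgroup Matrix
open scoped MatrixGroups Manifold Real

namespace Fermat.Agent.MF.IntStruct

variable (N : ℕ) [NeZero N]

omit [NeZero N] in
theorem T_mem_Gamma0 : ModularGroup.T ∈ Gamma0 N := by
  rw [Gamma0_mem]; simp [ModularGroup.T]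

omit [NeZero N] in
theorem coe_GL_val (γ : SL(2, ℤ)) :
    ((γ : GL (Fin 2) ℝ) : Matrix (Fin 2) (Fin 2) ℝ) =
      (γ : Matrix (Fin 2) (Fin 2) ℤ).map fun x : ℤ => (x : ℝ) := rfl

variable {N} in
/-- A form on `Γ₀(N)` as a bundled Mathlib modular form. -/
def IsForm.toGamma0 {k : ℤ} {f : ℍ → ℂ} (hf : IsForm (Gamma0 N) k f) :
    ModularForm (Gamma0 N) k where
  toFun := f
  slash_action_eq' := by
    rintro _ ⟨γ, hγ, rfl⟩
    exact hf.slash_eq γ hγ
  holo' := hf.holo
  bdd_at_cusps' hc := by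
    rw [OnePoint.isBoundedAt_iff_forall_SL2Z
      ((Subgroup.IsArithmetic.isCusp_iff_isCusp_SL2Z _).mp hc)]
    intro γ _
    exact hf.bdd γ

omit [NeZero N] in
/-- Hermite decomposition of `diag(N,1) γ`. -/
theorem exists_decomp (hN : 0 < N) (γ : SL(2, ℤ)) :
    ∃ (δ : SL(2, ℤ)) (a b d : ℤ) (had : (a : ℝ) * (d : ℝ) ≠ 0), 0 < a ∧ 0 < d ∧ a * d = N ∧
      (d = 1 → γ ∈ Gamma0 N) ∧
      heckeDiagMatrix N * (γ : GL (Fin 2) ℝ) =
        (δ : GL (Fin 2) ℝ) * upperTriangularGL (a : ℝ) b d had := by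
  set x : ℤ := N * γ 0 0 with hx
  set y : ℤ := N * γ 0 1 with hy
  set z : ℤ := γ 1 0 with hz
  set w : ℤ := γ 1 1 with hw
  have hdet : x * w - y * z = N := by
    have h1 : γ 0 0 * γ 1 1 - γ 0 1 * γ 1 0 = 1 := by
      rw [← Matrix.det_fin_two]; exact γ.det_coe
    rw [hx, hy, hz, hw]
    linear_combination (N : ℤ) * h1
  have hg0 : Int.gcd x z ≠ 0 := by
    intro h
    rw [Int.gcd_eq_zero_iff] at h
    rw [h.1, h.2] at hdet
    simp at hdet
    omega
  set g : ℤ := (Int.gcd x z : ℤ) with hg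
  have hgpos : 0 < g := by rw [hg]; exact_mod_cast Nat.pos_of_ne_zero hg0
  obtain ⟨x', hx'⟩ : g ∣ x := Int.gcd_dvd_left x z
  obtain ⟨z', hz'⟩ : g ∣ z := Int.gcd_dvd_right x z
  set u := Int.gcdA x z
  set v := Int.gcdB x z
  have hb : g = x * u + z * v := Int.gcd_eq_gcd_ab x z
  have huv : x' * u + z' * v = 1 := by
    apply mul_left_cancel₀ hgpos.ne'
    linear_combination -hb - u * hx' - v * hz'
  set d : ℤ := x' * w - z' * y with hd
  have had' : g * d = N := by
    rw [hd]; linear_combination hdet - w * hx' + y * hz'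
  have hdpos : 0 < d := by
    have : (0 : ℤ) < g * d := by rw [had']; exact_mod_cast hN
    exact pos_of_mul_pos_right this hgpos.le
  let δ : SL(2, ℤ) := ⟨!![x', -v; z', u], by rw [Matrix.det_fin_two_of]; linear_combination huv⟩
  have had : (g : ℝ) * (d : ℝ) ≠ 0 := by
    exact_mod_cast mul_ne_zero hgpos.ne' hdpos.ne'
  refine ⟨δ, g, u * y + v * w, d, had, hgpos, hdpos, had', ?_, ?_⟩
  · intro hd1
    rw [hd1, mul_one] at had'
    rw [Gamma0_mem]
    exact (ZMod.intCast_zmod_eq_zero_iff_dvd _ _).mpr ⟨z', by rw [← had']; exact hz'⟩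
  · apply Units.ext
    ext i j
    rw [Units.val_mul, Units.val_mul, val_heckeDiagMatrix hN.ne', val_upperTriangularGL, coe_GL_val,
      coe_GL_val]
    have e00 : (N : ℝ) * (γ 0 0 : ℤ) = (x' : ℝ) * (g : ℝ) := by
      exact_mod_cast (show (N : ℤ) * γ 0 0 = x' * g by rw [← hx, hx']; ring)
    have e10 : ((γ 1 0 : ℤ) : ℝ) = (z' : ℝ) * (g : ℝ) := by
      exact_mod_cast (show γ 1 0 = z' * g by rw [← hz, hz']; ring)
    have e01 : (N : ℝ) * (γ 0 1 : ℤ) =
        (x' : ℝ) * ((u * y + v * w : ℤ) : ℝ) + -(v : ℝ) * (d : ℝ) := by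
      exact_mod_cast (show (N : ℤ) * γ 0 1 = x' * (u * y + v * w) + -v * d by
        rw [← hy, hd]; linear_combination -y * huv)
    have e11 : ((γ 1 1 : ℤ) : ℝ) =
        (z' : ℝ) * ((u * y + v * w : ℤ) : ℝ) + (u : ℝ) * (d : ℝ) := by
      exact_mod_cast (show γ 1 1 = z' * (u * y + v * w) + u * d by
        rw [← hw, hd]; linear_combination -w * huv)
    fin_cases i <;> fin_cases j <;>
      simp [δ, Matrix.mul_apply, Fin.sum_univ_two] <;>
      push_cast at e00 e10 e01 e11 <;> linarith [e00, e10, e01, e11]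

theorem slash_decomp {k : ℤ} {f : ℍ → ℂ} (hf : IsForm ⊤ k f) (γ : SL(2, ℤ)) :
    ∃ (a b d : ℤ) (had : (a : ℝ) * (d : ℝ) ≠ 0), 0 < a ∧ 0 < d ∧ a * d = N ∧
      (d = 1 → γ ∈ Gamma0 N) ∧
      (f ∣[k] heckeDiagMatrix N) ∣[k] γ = f ∣[k] upperTriangularGL (a : ℝ) b d had := by
  obtain ⟨δ, a, b, d, had, h1, h2, h3, h4, h5⟩ := exists_decomp N (NeZero.pos N) γ
  refine ⟨a, b, d, had, h1, h2, h3, h4, ?_⟩
  rw [SL_slash, ← SlashAction.slash_mul, h5, SlashAction.slash_mul, ← SL_slash,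
    hf.slash_eq δ trivial]

theorem slash_diag_Gamma0 {k : ℤ} {f : ℍ → ℂ} (hf : IsForm ⊤ k f) {γ : SL(2, ℤ)}
    (hγ : γ ∈ Gamma0 N) : (f ∣[k] heckeDiagMatrix N) ∣[k] γ = f ∣[k] heckeDiagMatrix N := by
  obtain ⟨c, hc⟩ := (ZMod.intCast_zmod_eq_zero_iff_dvd _ _).mp (Gamma0_mem.mp hγ)
  have h1 : γ 0 0 * γ 1 1 - γ 0 1 * γ 1 0 = 1 := by
    rw [← Matrix.det_fin_two]; exact γ.det_coe
  let γ' : SL(2, ℤ) := ⟨!![γ 0 0, N * γ 0 1; c, γ 1 1], by
    rw [Matrix.det_fin_two_of]; rw [hc] at h1; linear_combination h1⟩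
  have hM : heckeDiagMatrix N * (γ : GL (Fin 2) ℝ) =
      (γ' : GL (Fin 2) ℝ) * heckeDiagMatrix N := by
    apply Units.ext
    ext i j
    rw [Units.val_mul, Units.val_mul, val_heckeDiagMatrix (NeZero.ne N), coe_GL_val, coe_GL_val]
    have e10 : ((γ 1 0 : ℤ) : ℝ) = (N : ℝ) * (c : ℝ) := by exact_mod_cast hc
    fin_cases i <;> fin_cases j <;>
      simp [γ', Matrix.mul_apply, Fin.sum_univ_two] <;> linarith [e10]
  rw [SL_slash, ← SlashAction.slash_mul, hM, SlashAction.slash_mul, ← SL_slash,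
    hf.slash_eq γ' trivial]

theorem isForm_slash_diag {k : ℤ} {f : ℍ → ℂ} (hf : IsForm ⊤ k f) :
    IsForm (Gamma0 N) k (f ∣[k] heckeDiagMatrix N) := by
  refine ⟨fun γ hγ => slash_diag_Gamma0 N hf hγ, hf.holo.slash k _, fun γ => ?_⟩
  obtain ⟨a, b, d, had, -, -, -, -, h⟩ := slash_decomp N hf γ
  rw [h]
  exact hf.bdd_self.slash k (by simp)

theorem im_heckeDiag_smul (τ : ℍ) : (heckeDiagMatrix N • τ : ℍ).im = N * τ.im := by
  rw [UpperHalfPlane.im, coe_heckeDiagMatrix_smul (NeZero.ne N)]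
  simp

theorem qExpansion_slash_diag {k : ℤ} {f : ℍ → ℂ} (hf : IsForm ⊤ k f) (m : ℕ) :
    (qExpansion 1 (f ∣[k] heckeDiagMatrix N)).coeff m =
      if N ∣ m then (N : ℂ) ^ (k - 1) * (qExpansion 1 f).coeff (m / N) else 0 := by
  refine (qExpansion_coeff_unique (isForm_slash_diag N hf).toGamma0 one_pos
    ((isForm_slash_diag N hf).analyticAt (T_mem_Gamma0 N))
    (c := fun m => if N ∣ m then (N : ℂ) ^ (k - 1) * (qExpansion 1 f).coeff (m / N) else 0)
    (fun τ => ?_) m).symm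
  show HasSum _ ((f ∣[k] heckeDiagMatrix N) τ)
  rw [slash_heckeDiagMatrix_apply k (NeZero.ne N)]
  have hs := ((UpperHalfPlane.hasSum_qExpansion one_pos (hf.periodic T_mem_top) hf.holo
    hf.bdd_self) (heckeDiagMatrix N • τ)).mul_left ((N : ℂ) ^ (k - 1))
  have hinj : Function.Injective fun i : ℕ => N * i :=
    mul_right_injective₀ (NeZero.ne N)
  refine (hinj.hasSum_iff ?_).mp ?_
  · intro x hx
    rw [if_neg, zero_smul]
    rintro ⟨c, rfl⟩
    exact hx ⟨c, rfl⟩
  · refine hs.congr_fun fun i => ?_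
    simp only [Function.comp_apply, dvd_mul_right, if_true,
      Nat.mul_div_cancel_left i (NeZero.pos N), smul_eq_mul]
    rw [coe_heckeDiagMatrix_smul (NeZero.ne N), mul_assoc, pow_mul]
    congr 2
    simp only [Function.Periodic.qParam]
    rw [← Complex.exp_nat_mul]
    congr 2
    push_cast
    ring

theorem slash_diag_mem_intForms {k : ℤ} {f : ℍ → ℂ} (hf : IsForm ⊤ k f) :
    f ∣[k] heckeDiagMatrix N ∈ intForms (Gamma0 N) k := by
  have h := mem_intForms_levelOne hf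
  clear hf
  induction h using Submodule.span_induction with
  | mem x hx =>
    obtain ⟨hx, z, hz⟩ := hx
    have hN : ((N : ℂ) ^ (k - 1)) ≠ 0 := zpow_ne_zero _ (by exact_mod_cast NeZero.ne N)
    have hgen : ((N : ℂ) ^ (k - 1))⁻¹ • (x ∣[k] heckeDiagMatrix N) ∈ intForms (Gamma0 N) k := by
      refine Submodule.subset_span ⟨(isForm_slash_diag N hx).smul _,
        PowerSeries.mk fun m => if N ∣ m then PowerSeries.coeff (m / N) z else 0, ?_⟩
      ext m
      rw [qExpansion_smul ((isForm_slash_diag N hx).analyticAt (T_mem_Gamma0 N)), coeff_toC,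
        PowerSeries.coeff_smul, qExpansion_slash_diag N hx, PowerSeries.coeff_mk, ← hz, coeff_toC,
        smul_eq_mul]
      split_ifs
      · field_simp
      · simp
    simpa [smul_smul, hN] using Submodule.smul_mem _ ((N : ℂ) ^ (k - 1)) hgen
  | zero => simp
  | add x y _ _ hx hy => rw [SlashAction.add_slash]; exact add_mem hx hy
  | smul c x _ hx =>
    rw [ModularForm.smul_slash, σ_heckeDiagMatrix]
    exact Submodule.smul_mem _ _ hx

/-- `Δ(Nz)`, up to normalisation. -/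
def sepForm : ℍ → ℂ := ModularForm.discriminant ∣[(12 : ℤ)] heckeDiagMatrix N

theorem sepForm_mem : sepForm N ∈ intForms (Gamma0 N) 12 :=
  slash_diag_mem_intForms N isForm_discriminant

omit [NeZero N] in
theorem false_of_exp_le {r : ℝ} (hr : 0 < r) {C : ℝ} (h : ∀ᶠ τ in atImInfty,
    Real.exp (r * τ.im) ≤ C) : False := by
  have ht : Filter.Tendsto (fun τ : ℍ => Real.exp (r * τ.im)) atImInfty Filter.atTop :=
    Real.tendsto_exp_atTop.comp ((Filter.tendsto_comap).const_mul_atTop hr)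
  obtain ⟨τ, h1, h2⟩ := (h.and (ht.eventually_gt_atTop C)).exists
  exact absurd h2 (not_lt.mpr h1)

/-- `Δ(Nz)` is fixed exactly by `Γ₀(N)`. -/
theorem mem_Gamma0_of_sepForm_slash {γ : SL(2, ℤ)}
    (hγ : sepForm N ∣[(12 : ℤ)] γ = sepForm N) : γ ∈ Gamma0 N := by
  obtain ⟨a, b, d, had, ha, hd, hadN, hmem, h⟩ := slash_decomp N isForm_discriminant γ
  apply hmem
  by_contra hd1
  rw [sepForm] at hγ
  rw [hγ] at h
  have hd2 : (2 : ℝ) ≤ d := by exact_mod_cast (show (2 : ℤ) ≤ d by omega)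
  have hdpos : (0 : ℝ) < d := by linarith
  have hapos : (0 : ℝ) < a := by exact_mod_cast ha
  have hadR : (a : ℝ) * d = N := by exact_mod_cast hadN
  set U := upperTriangularGL (a : ℝ) b d had with hU
  have hdetU : 0 < (U.det : ℝ) := by
    rw [hU, GeneralLinearGroup.val_det_apply, val_upperTriangularGL, det_fin_two_of]
    nlinarith
  have him : ∀ τ : ℍ, (U • τ : ℍ).im = (a / d : ℝ) * τ.im := by
    intro τ
    rw [UpperHalfPlane.im, coe_smul_of_det_pos hdetU]
    simp [hU, num, denom]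
    field_simp
  -- upper bound at `N τ`, lower bound at `U τ`
  obtain ⟨C₁, hC₁⟩ := (CuspFormClass.exp_decay_atImInfty (h := 1) CuspForm.discriminant one_pos
    one_mem_strictPeriods_SL).bound
  obtain ⟨C₂, hC₂, hC₂'⟩ := exp_isBigO_discriminant.exists_pos
  have hM : Filter.Tendsto (fun τ : ℍ => heckeDiagMatrix N • τ) atImInfty atImInfty :=
    tendsto_smul_atImInfty (by simp [val_heckeDiagMatrix (NeZero.ne N)])
  have hUt : Filter.Tendsto (fun τ : ℍ => U • τ) atImInfty atImInfty :=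
    tendsto_smul_atImInfty (by simp [hU])
  -- compare
  set α : ℝ := (U.det : ℝ) ^ (12 - 1 : ℤ) * (d : ℝ) ^ (-12 : ℤ) with hα
  have hαpos : 0 < α := by rw [hα]; positivity
  set β : ℝ := (N : ℝ) ^ (12 - 1 : ℤ)
  have hNpos : (0 : ℝ) < N := by exact_mod_cast NeZero.pos N
  have hrpos : 0 < 2 * π * ((N : ℝ) - a / d) := by
    have : (a : ℝ) / d < N := by
      rw [div_lt_iff₀ hdpos, ← hadR]
      nlinarith
    have := Real.pi_pos
    nlinarith
  refine false_of_exp_le hrpos (C := C₂ * C₁ * β / α) ?_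
  filter_upwards [hM.eventually hC₁, hUt.eventually hC₂'.bound] with τ h1 h2
  rw [im_heckeDiag_smul] at h1
  rw [him] at h2
  rw [Real.norm_of_nonneg (Real.exp_pos _).le] at h1 h2
  have hnorm : β * ‖ModularForm.discriminant (heckeDiagMatrix N • τ)‖ =
      α * ‖ModularForm.discriminant (U • τ)‖ := by
    have e := congrArg norm (congrFun h τ)
    rw [slash_heckeDiagMatrix_apply _ (NeZero.ne N), ModularForm.slash_apply] at e
    simp only [norm_mul, norm_zpow, Complex.norm_natCast] at e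
    rw [show σ U = .refl ℝ ℂ by rw [UpperHalfPlane.σ, if_pos hdetU]] at e
    simp only [ContinuousAlgEquiv.refl_apply, Complex.norm_real, Real.norm_eq_abs,
      abs_of_pos hdetU] at e
    rw [e]
    have hden : ‖denom U τ‖ = d := by
      simp [denom, hU, abs_of_pos hdpos]
    rw [hden, hα]
    ring
  rw [show (2 * π * ((N : ℝ) - a / d)) * τ.im =
      -2 * π * (a / d * τ.im) - (-2 * π * (N * τ.im) / 1) by ring, Real.exp_sub,
    div_le_iff₀ (Real.exp_pos _)]
  rw [CuspForm.coe_discriminant] at h1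
  calc Real.exp (-2 * π * (a / d * τ.im)) ≤ C₂ * ‖ModularForm.discriminant (U • τ)‖ := h2
    _ = C₂ * β / α * ‖ModularForm.discriminant (heckeDiagMatrix N • τ)‖ := by
        field_simp; linear_combination -hnorm
    _ ≤ C₂ * β / α * (C₁ * Real.exp (-2 * π * (N * τ.im) / 1)) :=
        mul_le_mul_of_nonneg_left h1 (by positivity)
    _ = _ := by ring

end Fermat.Agent.MF.IntStruct
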